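import Fermat.Agent.TwoAdic.HeckeSide.Data

/-!
# Good forms of the Hecke half

Owner: helper95 (LT2, Hecke co-captain).
-/

set_option autoImplicit false

noncomputable section

namespace Fermat.Agent.TwoAdic.HeckeSide

/-- An eigenform of level `2 m f` congruent to the residual system, new at every prime of `m f`. -/
structure IsGoodForm (D : HeckeData) (g : CuspForm (CongruenceSubgroup.Gamma0 (D.N * D.f)) 2) :
    Prop where
  eigen : g.IsNormalizedEigenform
  congr : ∀ l : ℕ, l ∈ D.good →
    ∃ a : integralClosure ℤ ℂ, (a : ℂ) = ModularFormClass.qCoeff g l ∧ D.red a = D.tbar l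
  at_two : ∃ a : integralClosure ℤ ℂ, (a : ℂ) = ModularFormClass.qCoeff g 2 ∧ D.red a = 1
  at_r : ∃ a : integralClosure ℤ ℂ, (a : ℂ) = ModularFormClass.qCoeff g D.r ∧ D.red a = 1
  newAt : ∀ l : ℕ, l.Prime → l ∣ D.m * D.f → g.IsNewformAt l

end Fermat.Agent.TwoAdic.HeckeSide
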