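import Fermat.Agent.TwoAdic.HeckeSide.Data
import Fermat.Agent.TwoAdic.TypeSpace.Setup
import Fermat.Agent.TwoAdic.TypeSpace.Eval
import Fermat.Agent.TwoAdic.Weil.Dual
import Fermat.Agent.TwoAdic.Cohom.TorsionFree
import Fermat.Agent.TwoAdic.Cohom.HeartCount
import Fermat.Agent.TwoAdic.Count.LiftSystems

/-!
# The constants of the Hecke half

For a `HeckeData`: the local characters `nu`, the type `sigma` with its torus-fixed vector and
pairing, the integrality of all values, and the arithmetic of the level `M = 2 m r`.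

Owner: helper85.
-/

set_option autoImplicit false

noncomputable section

open NumberField
open scoped Classical
open Fermat.Agent.TwoAdic.RingClass Fermat.Agent.TwoAdic.Cohom
open Fermat.Agent.TwoAdic.Count (AlgInt)

namespace Fermat.Agent.TwoAdic.HeckeSide

namespace HeckeData

variable (D : HeckeData)

theorem aux' : RingClass.IsAuxSet D.K D.f D.Q := D.aux

theorem prod_Q : ∏ q ∈ D.Q, q = D.f := rfl

theorem dvd_f (q : D.Q) : (q : ℕ) ∣ D.f := D.aux'.dvd q.2

instance instNeZeroF : NeZero D.f := D.aux'.neZero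

instance instPrimeSet : TypeSpace.PrimeSet D.Q := TypeSpace.primeSet_of_isAuxSet D.K D.aux'

instance instInertSet : TypeSpace.InertSet D.K D.Q := TypeSpace.inertSet_of_isAuxSet D.K D.aux'

instance instNonemptyQ : Nonempty D.Q := D.Q_nonempty.to_subtype

theorem image_Q : (Finset.univ.image fun q : D.Q => (q : ℕ)) = D.Q := by
  ext x
  simp

theorem prod_image_Q : (Finset.univ.image fun q : D.Q => (q : ℕ)).prod id = D.f := by
  rw [D.image_Q]; rfl

theorem q_odd (q : D.Q) : Odd (q : ℕ) := by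
  obtain ⟨c, hc⟩ := D.aux'.four_dvd q q.2
  exact ⟨2 * c - 1, by omega⟩

/-! ### The level -/

/-- The level `2 m r` of the type space. -/
def M : ℕ := D.N * D.r

/-- The modulus of the good primes. -/
def L0 : ℕ := D.N * D.r * D.f

theorem M_mul_f : D.M * D.f = D.L0 := rfl

theorem M_eq : D.M = 2 * D.m * D.r := rfl

theorem L0_eq : D.L0 = 2 * D.m * D.r * D.f := rfl

theorem m_ne_zero : D.m ≠ 0 := fun h => by
  have := D.m_odd
  rw [h] at this
  exact Nat.not_odd_zero this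

instance instNeZeroM : NeZero D.M :=
  ⟨mul_ne_zero (mul_ne_zero two_ne_zero D.m_ne_zero) D.r_prime.ne_zero⟩

instance instNeZeroL0 : NeZero D.L0 := ⟨mul_ne_zero (NeZero.ne D.M) (NeZero.ne D.f)⟩

theorem q_not_dvd_M (q : D.Q) : ¬ (q : ℕ) ∣ D.M := D.Q_not_dvd q q.2

theorem coprime_of_forall_not_dvd {n : ℕ} (h : ∀ q : D.Q, ¬ (q : ℕ) ∣ n) : n.Coprime D.f := by
  rw [← D.prod_Q]
  exact Nat.Coprime.prod_right fun q hq =>
    Nat.Coprime.symm ((D.aux'.prime q hq).coprime_iff_not_dvd.mpr (h ⟨q, hq⟩))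

theorem M_coprime_f : D.M.Coprime D.f := D.coprime_of_forall_not_dvd D.q_not_dvd_M

theorem q_ne_r (q : D.Q) : (q : ℕ) ≠ D.r := fun h =>
  D.q_not_dvd_M q (h ▸ dvd_mul_left D.r D.N)

theorem q_not_mem_E (q : D.Q) : (q : ℕ) ∉ ({2, D.r} : Finset ℕ) := by
  simp only [Finset.mem_insert, Finset.mem_singleton, not_or]
  refine ⟨fun h => ?_, D.q_ne_r q⟩
  have := D.q_odd q
  rw [h] at this
  exact absurd this (by decide)

theorem isTorsionFreeMod_M : IsTorsionFreeMod D.M :=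
  isTorsionFreeMod_of_dvd D.r_prime D.r_mod (dvd_mul_left D.r D.N)

theorem not_dvd_f {p : ℕ} (hp : p.Prime) (h : ∀ q : D.Q, (q : ℕ) ≠ p) : ¬ p ∣ D.f := by
  rw [← D.prod_Q, (Nat.prime_iff.mp hp).dvd_finsetProd_iff]
  rintro ⟨q, hq, hpq⟩
  exact h ⟨q, hq⟩ ((Nat.prime_dvd_prime_iff_eq hp (D.aux'.prime q hq)).mp hpq).symm

theorem two_mem_ops : 2 ∈ D.ops := by
  refine ⟨Nat.prime_two, fun h => ?_⟩
  rcases Nat.prime_two.dvd_mul.mp h with h | h
  · exact D.m_odd.not_two_dvd_nat h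
  · exact D.not_dvd_f Nat.prime_two
      (fun q e => absurd (e ▸ D.q_odd q) (by decide)) h

theorem r_mem_ops : D.r ∈ D.ops := by
  refine ⟨D.r_prime, fun h => ?_⟩
  rcases D.r_prime.dvd_mul.mp h with h | h
  · exact D.r_not_dvd (h.trans (dvd_mul_left D.m 2))
  · exact D.not_dvd_f D.r_prime D.q_ne_r h

theorem goodPrimes_ops : GoodPrimes D.f D.ops := fun _ hl =>
  ⟨hl.1, hl.1.coprime_iff_not_dvd.mpr fun h => hl.2 (h.trans (dvd_mul_left D.f D.m))⟩

/-- The shape of the index set: good primes together with `2` and `r`. -/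
theorem mem_ops_iff (l : ℕ) :
    l ∈ D.ops ↔ l.Prime ∧ (¬ l ∣ D.L0 ∨ l ∈ ({2, D.r} : Finset ℕ)) := by
  simp only [Finset.mem_insert, Finset.mem_singleton]
  constructor
  · rintro ⟨hl, hn⟩
    refine ⟨hl, ?_⟩
    by_cases h : l ∣ D.L0
    · refine Or.inr ?_
      rcases hl.dvd_mul.mp h with h | h
      · rcases hl.dvd_mul.mp h with h | h
        · rcases hl.dvd_mul.mp h with h | h
          · exact Or.inl ((Nat.prime_dvd_prime_iff_eq hl Nat.prime_two).mp h)
          · exact absurd (h.trans (dvd_mul_right D.m D.f)) hn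
        · exact Or.inr ((Nat.prime_dvd_prime_iff_eq hl D.r_prime).mp h)
      · exact absurd (h.trans (dvd_mul_left D.f D.m)) hn
    · exact Or.inl h
  · rintro ⟨hl, h | rfl | rfl⟩
    · exact ⟨hl, fun h' => h (h'.trans ⟨2 * D.r, by rw [L0_eq]; ring⟩)⟩
    · exact D.two_mem_ops
    · exact D.r_mem_ops

theorem good_subset_ops : D.good ⊆ D.ops := fun l hl =>
  (D.mem_ops_iff l).mpr ⟨hl.1, Or.inl hl.2⟩

/-- The non-Eisenstein prime, in the shape of `Count.exists_systems_heartPi`. -/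
theorem exists_nonEisenstein (hne : D.NonEisenstein) :
    ∃ ℓ : ℕ, ℓ.Prime ∧ ¬ ℓ ∣ D.L0 ∧ ℓ ∈ D.ops ∧ (ℓ : ZMod D.f) = 1 ∧
      (ℓ : ZMod (D.M * D.f)) = 1 ∧ D.chibar ℓ ≠ (ℓ : D.k) + 1 := by
  obtain ⟨ℓ, hℓ, hn, h1, ht⟩ := hne D.L0 (NeZero.ne D.L0)
  have hL0 : ¬ ℓ ∣ D.L0 := fun h => hn (((h.mul_right D.N).mul_right D.r).mul_right D.f)
  have hcast : (ℓ : ZMod D.f) = 1 := by
    have h1' : (ℓ : ZMod (D.M * D.f)) = 1 := h1
    have := congrArg (ZMod.castHom (dvd_mul_left D.f D.M) (ZMod D.f)) h1'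
    rwa [map_natCast, map_one] at this
  refine ⟨ℓ, hℓ, hL0, (D.mem_ops_iff ℓ).mpr ⟨hℓ, Or.inl hL0⟩, hcast, h1, ?_⟩
  have hr : ℓ ≠ D.r := fun h => hL0 (by rw [h, L0_eq]; exact ⟨2 * D.m * D.f, by ring⟩)
  have hodd : Odd ℓ := hℓ.odd_of_ne_two fun h => hL0 (by rw [h, L0_eq]; exact ⟨D.m * D.r * D.f, by ring⟩)
  have hz : ((ℓ : ℕ) : D.k) + 1 = 0 := by
    rw [← Nat.cast_one, ← Nat.cast_add]
    exact (CharP.cast_eq_zero_iff D.k 2 _).mpr hodd.add_one.two_dvd
  rw [hz, chibar, if_neg hr]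
  exact ht

/-! ### The type -/

/-- The local characters. -/
def nu (q : D.Q) : ResUnits D.K (q : ℕ) →* ℂˣ := (D.aux'.exists_localChar q.2).choose

theorem isLocalChar_nu (q : D.Q) : IsLocalChar (D.nu q) := (D.aux'.exists_localChar q.2).choose_spec

/-- The Weil data. -/
def weilData : Weil.Data (ZMod D.f) (fun q : D.Q => ZMod (q : ℕ)) ℂ := TypeSpace.data D.prod_Q

theorem weilData_proj (q : D.Q) :
    D.weilData.proj q = ZMod.castHom (D.dvd_f q) (ZMod (q : ℕ)) := rfl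

theorem weilData_surjective :
    Function.Surjective fun (a : ZMod D.f) (q : D.Q) => D.weilData.proj q a :=
  TypeSpace.data_surjective D.prod_Q

theorem isCuspidal_nu : Weil.IsCuspidal (F := fun q : D.Q => ZMod (q : ℕ))
    (E := fun q : D.Q => TypeSpace.Residue D.K (q : ℕ)) D.nu :=
  TypeSpace.isCuspidal D.nu D.aux' D.isLocalChar_nu

theorem hasSign_nu : Weil.HasSign (F := fun q : D.Q => ZMod (q : ℕ))
    (E := fun q : D.Q => TypeSpace.Residue D.K (q : ℕ)) D.nu :=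
  TypeSpace.hasSign D.nu D.aux' D.isLocalChar_nu

/-- The space of the type. -/
abbrev W : Submodule ℂ ((∀ q : D.Q, TypeSpace.Residue D.K (q : ℕ)) → ℂ) :=
  Weil.cusp (F := fun q : D.Q => ZMod (q : ℕ)) D.nu

/-- The type `σ_μ`. -/
def sigma : Representation ℂ (GL (Fin 2) (ZMod D.f)) D.W := Weil.rep D.weilData D.nu

theorem sigma_def : D.sigma = Weil.rep D.weilData D.nu := rfl

/-- The torus invariant vector. -/
def w0 : D.W := Weil.base (fun q : D.Q => ZMod (q : ℕ)) D.nu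

theorem w0_def : D.w0 = Weil.base (fun q : D.Q => ZMod (q : ℕ)) D.nu := rfl

theorem isTorusFixed : Weil.IsTorusFixed D.sigma D.w0 :=
  Weil.rep_base_of_diagonal D.weilData D.isCuspidal_nu

theorem span_w0 :
    Submodule.span ℂ {w | ∃ g : GL (Fin 2) (ZMod D.f), ∃ b : ZMod D.f,
      (g : Matrix (Fin 2) (Fin 2) (ZMod D.f)) = !![1, b; 0, 1] ∧ D.sigma g D.w0 = w} = ⊤ := by
  refine eq_top_iff.mpr ((Weil.span_translates D.weilData D.isCuspidal_nu
    D.weilData_surjective).ge.trans (Submodule.span_mono ?_))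
  rintro _ ⟨b, rfl⟩
  exact ⟨Weil.translation b, b, rfl, rfl⟩

theorem hkill : ∃ b : ZMod D.f, ∀ f : D.W →ₗ[ℂ] ℂ, (∀ g : GL (Fin 2) (ZMod D.f),
    (g : Matrix (Fin 2) (Fin 2) (ZMod D.f)) = !![1, b; 0, 1] → f ∘ₗ D.sigma g = f) → f = 0 := by
  obtain ⟨i₀⟩ := (inferInstance : Nonempty D.Q)
  refine ⟨TypeSpace.idem D.prod_Q i₀ 1, fun f hf => ?_⟩
  refine Weil.eq_zero_of_comp_translation D.weilData D.isCuspidal_nu (i₀ := i₀)
    (fun i hi => ?_) (fun a ha => ?_) f (hf _ (Weil.coe_translation _))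
  · exact (TypeSpace.proj_idem D.prod_Q i₀ i 1).trans (Pi.single_eq_of_ne hi 1)
  · show TypeSpace.addCharAt D.prod_Q i₀ (TypeSpace.proj D.prod_Q i₀ _ * a) ≠ 1
    rw [TypeSpace.proj_idem, Pi.single_eq_same, one_mul, Ne, TypeSpace.addCharAt_eq_one_iff]
    exact ha

/-- Forms of the type are cuspidal at every level prime to `f`. -/
theorem isCuspidalType {L : ℕ} [NeZero L] (hL : L.Coprime D.f) :
    Weil.IsCuspidalType L D.sigma := by
  obtain ⟨b, hb⟩ := D.hkill
  exact Weil.isCuspidalType_of_kill hL hb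

theorem isCuspidalType_M : Weil.IsCuspidalType D.M D.sigma := D.isCuspidalType D.M_coprime_f

/-- The type is self dual. -/
def selfDual : D.W ≃ₗ[ℂ] Module.Dual ℂ D.W := Weil.pairingEquiv D.isCuspidal_nu

theorem selfDual_sigma (g : GL (Fin 2) (ZMod D.f)) (w : D.W) :
    D.selfDual (D.sigma g w) = D.sigma.dual g (D.selfDual w) :=
  Weil.pairingEquiv_rep D.weilData D.isCuspidal_nu g w

theorem sigma_neg_one : D.sigma (-1) = 1 := by
  refine LinearMap.ext fun φ => Subtype.ext (funext fun x => ?_)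
  let u : ∀ q : D.Q, (TypeSpace.Residue D.K (q : ℕ))ˣ := fun _ => -1
  have hg : ((-1 : GL (Fin 2) (ZMod D.f)) : Matrix (Fin 2) (Fin 2) (ZMod D.f)) =
      !![((-1 : (ZMod D.f)ˣ) : ZMod D.f), 0; 0, ((-1 : (ZMod D.f)ˣ) : ZMod D.f)] := by
    rw [Units.val_neg, Units.val_one, Units.val_neg, Units.val_one, Matrix.one_fin_two]
    simp
  have hl : Weil.IsNormLift D.weilData (1 : ∀ q : D.Q, (TypeSpace.Residue D.K (q : ℕ))ˣ)
      (((-1 : (ZMod D.f)ˣ) * -1 : (ZMod D.f)ˣ) : ZMod D.f) := fun q => by simp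
  show (Weil.rep D.weilData D.nu (-1) φ : (∀ q : D.Q, TypeSpace.Residue D.K (q : ℕ)) → ℂ) x = _
  rw [Weil.rep_diagonal D.weilData _ _ _ hg hl, inv_one]
  have hu : ∀ q : D.Q, Algebra.norm (ZMod (q : ℕ)) (u q : TypeSpace.Residue D.K (q : ℕ)) = 1 :=
    fun q => by
      have h : ((u q : (TypeSpace.Residue D.K (q : ℕ))ˣ) : TypeSpace.Residue D.K (q : ℕ)) =
          algebraMap (ZMod (q : ℕ)) _ (-1) := by simp [u]
      rw [h, Algebra.norm_algebraMap,
        Weil.IsPlane.finrank_eq_two (F := ZMod (q : ℕ)) (E := TypeSpace.Residue D.K (q : ℕ))]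
      simp
  have hval : Weil.muVal D.nu u = 1 := Weil.muVal_eq_one_of_scalar D.isCuspidal_nu u (fun _ => -1)
    fun q => by simp [u]
  have hx : (fun q : D.Q => D.weilData.proj q (((-1 : (ZMod D.f)ˣ)⁻¹ : (ZMod D.f)ˣ) : ZMod D.f) •
      (((1 : ∀ q : D.Q, (TypeSpace.Residue D.K (q : ℕ))ˣ) q :
        TypeSpace.Residue D.K (q : ℕ)) * x q)) = Weil.scale u x := by
    funext q
    simp [u, Weil.scale]
  rw [hx, φ.2 u hu x, hval, one_mul]
  simp [Weil.muVal]

/-! ### Integrality and reduction -/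

theorem red_eq_one_of_pow_four {a : AlgInt} (h : a ^ 4 = 1) : D.red a = 1 := by
  have h4 : (D.red a + 1) ^ 4 = 0 := by
    rw [show (D.red a + 1) ^ 4 = ((D.red a + 1) ^ 2) ^ 2 by ring, CharTwo.add_sq, CharTwo.add_sq,
      one_pow, one_pow, ← map_pow, ← map_pow, ← pow_mul, h, map_one]
    exact CharTwo.add_self_eq_zero 1
  exact CharTwo.add_eq_zero.mp (pow_eq_zero_iff four_ne_zero |>.mp h4)

/-- The values of the local characters are algebraic integers reducing to one. -/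
theorem exists_algInt_nu (q : D.Q) (u : ResUnits D.K (q : ℕ)) :
    ∃ a : AlgInt, (a : ℂ) = (D.nu q u : ℂ) ∧ D.red a = 1 := by
  have h4 : ((D.nu q u : ℂˣ) : ℂ) ^ 4 = 1 := by
    rw [← Units.val_pow_eq_pow_val, (D.isLocalChar_nu q).pow_four, Units.val_one]
  refine ⟨⟨_, IsIntegral.of_pow (by norm_num : 0 < 4) (by rw [h4]; exact isIntegral_one)⟩, rfl,
    D.red_eq_one_of_pow_four (Subtype.ext h4)⟩

theorem isIntegral_char (q : D.Q) (t : ZMod (q : ℕ)) : IsIntegral ℤ (D.weilData.char q t) :=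
  IsIntegral.of_pow (D.aux'.prime q q.2).pos (by
    rw [← AddChar.map_nsmul_eq_pow, nsmul_eq_mul, ZMod.natCast_self, zero_mul,
      AddChar.map_zero_eq_one]
    exact isIntegral_one)

/-- The additive characters with values in the algebraic integers. -/
def charInt (q : D.Q) : AddChar (ZMod (q : ℕ)) AlgInt where
  toFun t := ⟨D.weilData.char q t, D.isIntegral_char q t⟩
  map_zero_eq_one' := Subtype.ext (AddChar.map_zero_eq_one _)
  map_add_eq_mul' _ _ := Subtype.ext (AddChar.map_add_eq_mul _ _ _)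

theorem coe_charInt (q : D.Q) (t : ZMod (q : ℕ)) :
    ((D.charInt q t : AlgInt) : ℂ) = D.weilData.char q t := rfl

/-- The reduced additive characters. -/
def charBar (q : D.Q) : AddChar (ZMod (q : ℕ)) D.k := D.red.toMonoidHom.compAddChar (D.charInt q)

theorem charBar_apply (q : D.Q) (t : ZMod (q : ℕ)) : D.charBar q t = D.red (D.charInt q t) := rfl

theorem cast_q (q : D.Q) : ((q : ℕ) : D.k) = 1 := by
  obtain ⟨c, hc⟩ := D.q_odd q
  rw [hc]; push_cast
  rw [(CharTwo.two_eq_zero : (2 : D.k) = 0), zero_mul, zero_add]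

theorem charBar_ne_one (q : D.Q) : D.charBar q ≠ 1 := by
  intro h
  have hne : D.charInt q ≠ 1 := fun e => D.weilData.char_ne q (by
    refine DFunLike.ext _ _ fun t => ?_
    have := congrArg (fun χ : AddChar (ZMod (q : ℕ)) AlgInt => ((χ t : AlgInt) : ℂ)) e
    simpa [coe_charInt] using this)
  have h0 := congrArg D.red (AddChar.sum_eq_zero_of_ne_one hne)
  rw [map_sum, map_zero, Finset.sum_congr rfl fun t _ => show D.red (D.charInt q t) = 1 by
    rw [← charBar_apply, h, AddChar.one_apply], Finset.sum_const, Finset.card_univ, ZMod.card,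
    nsmul_one, D.cast_q] at h0
  exact one_ne_zero h0

theorem hcard (q : D.Q) : ((Fintype.card (ZMod (q : ℕ)) + 1 : ℕ) : D.k) = 0 := by
  rw [ZMod.card, Nat.cast_add, D.cast_q, Nat.cast_one, CharTwo.add_self_eq_zero]

theorem two_ne_zero_q (q : D.Q) : (2 : ZMod (q : ℕ)) ≠ 0 := by
  intro h0
  have h : ((2 : ℕ) : ZMod (q : ℕ)) = 0 := by exact_mod_cast h0
  have := (Nat.prime_dvd_prime_iff_eq (D.aux'.prime q q.2) Nat.prime_two).mp
    ((ZMod.natCast_eq_zero_iff 2 _).mp h)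
  have hq := D.q_odd q
  rw [this] at hq
  exact absurd hq (by decide)

/-- The residual type at `M`. -/
abbrev sigmaBar : Representation D.k (GL (Fin 2) (ZMod D.f))
    ((∀ q : D.Q, (ZMod (q : ℕ))ˣ) → D.k) :=
  Cuspidal.heartPi (fun q : D.Q => (redTo (D.dvd_f q) :)) D.charBar_ne_one D.hcard

end HeckeData

end Fermat.Agent.TwoAdic.HeckeSide
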