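import Fermat.Agent.TwoAdic.Cohom.ValuationLift
import Fermat.Agent.TwoAdic.HeckeSide.WeilInstance
import Fermat.Agent.TwoAdic.TypeSpace.Universal
import Fermat.Agent.TwoAdic.TypeSpace.GoodPart.Main
import Fermat.Agent.TwoAdic.Cuspidal.HeartReduce
import Mathlib.RingTheory.Valuation.LocalSubring
import Mathlib.RingTheory.Ideal.GoingUp

/-!
# The lifting bound for the type of the Hecke half

A valuation ring `O` of `ℂ` over the kernel of `red` gives a residue field `κ` in which the lifts
of the residual system are the same. Over `O` the type has a basis reducing to that of the heart,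
so a subspace of lifts in `H¹` of the type is bounded by the part of the heart over `κ`, which is
the alternating sum of parts with trivial coefficients.
-/

set_option autoImplicit false

noncomputable section

open Module
open scoped Classical
open Fermat.Agent.TwoAdic.Cohom
open Fermat.Agent.TwoAdic.Count (AlgInt IsLift)

namespace Fermat.Agent.TwoAdic.Weil

section ChangeRing

variable {ι : Type*} [Fintype ι] {F E : ι → Type*}
  [∀ i, Field (F i)] [∀ i, Field (E i)] [∀ i, Fintype (F i)] [∀ i, Fintype (E i)]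
  [∀ i, Algebra (F i) (E i)] [∀ i, IsPlane (F i) (E i)]
  {A : Type*} [CommRing A] {R R' : Type*} [CommRing R] [IsDomain R] [CommRing R'] [IsDomain R']
  {f : R →+* R'} (d : Data A F R) (d' : Data A F R') {μ : ∀ i, (E i)ˣ →* Rˣ}
  {μ' : ∀ i, (E i)ˣ →* R'ˣ}

theorem muVal_changeRing (hμ : ∀ i u, ((μ' i u : R'ˣ) : R') = f (μ i u)) (u : ∀ i, (E i)ˣ) :
    muVal μ' u = f (muVal μ u) := by
  simp [muVal, map_prod, hμ]

/-- Change of coefficient ring on `cusp μ`. -/
def cuspMap (hμ : ∀ i u, ((μ' i u : R'ˣ) : R') = f (μ i u)) :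
    cusp (F := F) μ →ₛₗ[f] cusp (F := F) μ' where
  toFun φ := ⟨fun x => f ((φ : (∀ i, E i) → R) x), fun u hu x => by
    show f ((φ : (∀ i, E i) → R) (scale u x)) = _
    rw [φ.2 u hu x, map_mul, muVal_changeRing hμ]⟩
  map_add' φ φ' := Subtype.ext (funext fun x => by simp)
  map_smul' c φ := Subtype.ext (funext fun x => by simp)

theorem cuspMap_apply (hμ : ∀ i u, ((μ' i u : R'ˣ) : R') = f (μ i u)) (φ : cusp (F := F) μ)
    (x : ∀ i, E i) :
    (cuspMap hμ φ : (∀ i, E i) → R') x = f ((φ : (∀ i, E i) → R) x) := rfl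

theorem kernP_changeRing (hproj : ∀ i, d'.proj i = d.proj i)
    (hchar : ∀ i t, d'.char i t = f (d.char i t)) (g : Matrix (Fin 2) (Fin 2) A)
    (x y : ∀ i, E i) : kernP d' g x y = f (kernP d g x y) := by
  rw [kernP, kernP, map_prod]
  refine Finset.prod_congr rfl fun i _ => ?_
  let := d.inv i
  let := d'.inv i
  have h : d'.char i = f.toMonoidHom.compAddChar (d.char i) := by
    ext t
    exact hchar i t
  rw [Cuspidal.map_kern, hproj, h]

/-- Change of coefficient ring commutes with the Weil representation. -/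
theorem cuspMap_rep (hproj : ∀ i, d'.proj i = d.proj i)
    (hchar : ∀ i t, d'.char i t = f (d.char i t))
    (hμ : ∀ i u, ((μ' i u : R'ˣ) : R') = f (μ i u)) (g : GL (Fin 2) A) (φ : cusp (F := F) μ) :
    cuspMap hμ (rep d μ g φ) = rep d' μ' g (cuspMap hμ φ) := by
  set h := normLift E d (Matrix.GeneralLinearGroup.det g)
  have hl : IsNormLift d h ((Matrix.GeneralLinearGroup.det g : Aˣ) : A) :=
    isNormLift_normLift d _
  have hl' : IsNormLift d' h ((Matrix.GeneralLinearGroup.det g : Aˣ) : A) := fun i => by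
    rw [hproj]; exact hl i
  rw [rep_eq_of_isNormLift d g hl, rep_eq_of_isNormLift d' g hl']
  refine Subtype.ext (funext fun x => ?_)
  simp only [Module.End.mul_apply, cuspMap_apply, dilOp_apply, coe_weilCusp, weilOp_apply, map_mul,
    map_sum, muVal_changeRing hμ, kernP_changeRing d d' hproj hchar]

theorem cuspMap_injective (hμ : ∀ i u, ((μ' i u : R'ˣ) : R') = f (μ i u))
    (hf : Function.Injective f) : Function.Injective (cuspMap (F := F) hμ) := fun φ φ' h =>
  Subtype.ext (funext fun x => hf (congrFun (congrArg Subtype.val h) x))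

/-- Change of coefficient ring maps delta functions to delta functions. -/
theorem cuspMap_deltaBasis (hμ : ∀ i u, ((μ' i u : R'ˣ) : R') = f (μ i u))
    (hc : IsCuspidal (F := F) μ) (hc' : IsCuspidal (F := F) μ') (n : ∀ i, (F i)ˣ) :
    cuspMap hμ (deltaBasis hc n) = deltaBasis hc' n :=
  coord_injective hc' (funext fun m => by
    rw [coord_deltaBasis]
    show f (coord (deltaBasis hc n) m) = _
    rw [coord_deltaBasis, Pi.single_apply, Pi.single_apply]
    split_ifs <;> simp)

/-- Reduction maps delta functions to delta functions. -/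
theorem cuspRed_deltaBasis {k : Type*} [Field k] {f₀ : R →+* k}
    (hone : ∀ i (u : (E i)ˣ), f₀ (μ i u : R) = 1) (hc : IsCuspidal (F := F) μ)
    (n : ∀ i, (F i)ˣ) : Cuspidal.cuspRed f₀ (deltaBasis hc n) = Pi.basisFun k _ n :=
  funext fun m => by
    rw [Pi.basisFun_apply, ← Cuspidal.map_apply_eq_cuspRed hone (deltaBasis hc n)
      (x := fun i => ((normRep F E m i : (E i)ˣ) : E i))
      fun i => congrArg Units.val (congrFun (normU_normRep F m) i)]
    show f₀ (coord (deltaBasis hc n) m) = _
    rw [coord_deltaBasis, Pi.single_apply, Pi.single_apply]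
    split_ifs <;> simp

end ChangeRing

/-- Vectors in a sum of parts at lifts are killed by products of factors with lifted values. -/
theorem exists_list_of_mem_iSup_part {K : Type*} [Field K] {O : ValuationSubring K} {k : Type*} [Field k]
    {res : O →+* k} {ι V : Type*} [AddCommGroup V] [Module K V] {T : ι → Module.End K V}
    {C : Set (ι → K)} {χ : ι → k} (hC : ∀ c ∈ C, ∀ i, ∃ a : O, (a : K) = c i ∧ res a = χ i)
    (i : ι) {x : V} (hx : x ∈ ⨆ c ∈ C, part T c) :
    ∃ l : List O, (∀ a ∈ l, res a = χ i) ∧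
      ((l.map fun a : O => (T i - O.subtype a • (1 : Module.End K V) : Module.End K V)).prod :
        Module.End K V) x = 0 := by
  induction hx using Submodule.iSup_induction' with
  | mem c y hy =>
    by_cases hc : c ∈ C
    · rw [iSup_pos hc] at hy
      obtain ⟨n, hn⟩ := mem_part.mp hy i
      obtain ⟨a, ha, ha'⟩ := hC c hc i
      refine ⟨List.replicate n a, fun b hb => by rw [List.eq_of_mem_replicate hb]; exact ha', ?_⟩
      rw [List.map_replicate, List.prod_replicate, show O.subtype a = c i from ha]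
      exact hn
    · rw [iSup_neg hc, Submodule.mem_bot] at hy
      exact ⟨[], by simp, by simpa using hy⟩
  | zero => exact ⟨[], by simp, by simp⟩
  | add y z _ _ hy hz =>
    obtain ⟨l₁, h₁, h₁'⟩ := hy
    obtain ⟨l₂, h₂, h₂'⟩ := hz
    set P₁ := (l₁.map fun a : O => (T i - O.subtype a • (1 : Module.End K V) : Module.End K V)).prod
    set P₂ := (l₂.map fun a : O => (T i - O.subtype a • (1 : Module.End K V) : Module.End K V)).prod
    have hc : Commute P₁ P₂ := by
      refine Commute.list_prod_left _ _ fun u hu => Commute.list_prod_right _ _ fun v hv => ?_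
      obtain ⟨a, -, rfl⟩ := List.mem_map.mp hu
      obtain ⟨b, -, rfl⟩ := List.mem_map.mp hv
      exact ((Commute.refl (T i)).sub_right ((Commute.one_right (T i)).smul_right _)).sub_left
        (((Commute.one_left _).sub_right ((Commute.one_left _).smul_right _)).smul_left _)
    refine ⟨l₁ ++ l₂, fun a ha => (List.mem_append.mp ha).elim (h₁ a) (h₂ a), ?_⟩
    rw [List.map_append, List.prod_append, map_add]
    show (P₁ * P₂) y + (P₁ * P₂) z = 0
    rw [show (P₁ * P₂) y = P₂ (P₁ y) by rw [hc.eq]; rfl, Module.End.mul_apply, h₁', h₂', map_zero,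
      map_zero, add_zero]

end Fermat.Agent.TwoAdic.Weil

namespace Fermat.Agent.TwoAdic.HeckeSide

/-- A valuation ring over the kernel of a map of the algebraic integers to characteristic two. -/
theorem exists_valuationSubring_ker {k : Type*} [Field k] [CharP k 2] (red : AlgInt →+* k) :
    ∃ (O : ValuationSubring ℂ) (h : ∀ a : AlgInt, (a : ℂ) ∈ O),
      ∀ a : AlgInt, red a = 0 ↔ IsLocalRing.residue O ⟨(a : ℂ), h a⟩ = 0 := by
  let A : Subring ℂ := AlgInt.toSubring
  let j : A →+* AlgInt :=
    { toFun := fun a => ⟨a.1, a.2⟩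
      map_one' := rfl
      map_mul' := fun _ _ => rfl
      map_zero' := rfl
      map_add' := fun _ _ => rfl }
  have hmax : (RingHom.ker red).IsMaximal := by
    have : (RingHom.ker red).IsPrime := RingHom.ker_isPrime red
    refine Ideal.isMaximal_of_isIntegral_of_isMaximal_comap (R := ℤ) _ ?_
    refine Ideal.IsPrime.isMaximal (Ideal.IsPrime.comap _) fun h => ?_
    have h2 : (2 : ℤ) ∈ (RingHom.ker red).comap (algebraMap ℤ AlgInt) := by
      rw [Ideal.mem_comap, RingHom.mem_ker, map_ofNat, map_ofNat, CharTwo.two_eq_zero]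
    rw [h, Ideal.mem_bot] at h2
    exact two_ne_zero h2
  obtain ⟨B, hB, hI⟩ := Ideal.image_subset_nonunits_valuationSubring (K := ℂ)
    (RingHom.ker (red.comp j)) (RingHom.ker_ne_top _)
  have hmem : ∀ a : AlgInt, (a : ℂ) ∈ B := fun a => hB (show (a : ℂ) ∈ A from a.2)
  refine ⟨B, hmem, fun a => ?_⟩
  have hzero : ∀ b : AlgInt, red b = 0 → IsLocalRing.residue B ⟨(b : ℂ), hmem b⟩ = 0 := by
    intro b hb
    rw [IsLocalRing.residue_eq_zero_iff]
    exact ValuationSubring.coe_mem_nonunits_iff.mp
      (hI ⟨⟨(b : ℂ), b.2⟩, hb, rfl⟩)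
  refine ⟨hzero a, fun h0 => ?_⟩
  by_contra ha
  obtain ⟨b, i, hi, hbi⟩ := hmax.exists_inv (x := a) (by rwa [RingHom.mem_ker])
  let incl : AlgInt →+* B :=
    { toFun := fun a => ⟨(a : ℂ), hmem a⟩
      map_one' := rfl
      map_mul' := fun _ _ => rfl
      map_zero' := rfl
      map_add' := fun _ _ => rfl }
  have h1 := congrArg (fun z => IsLocalRing.residue B (incl z)) hbi
  simp only [map_add, map_mul, map_one] at h1
  rw [show IsLocalRing.residue B (incl a) = 0 from h0,
    show IsLocalRing.residue B (incl i) = 0 from hzero i hi, mul_zero, add_zero] at h1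
  exact zero_ne_one h1

namespace HeckeData

variable (D : HeckeData)

/-- The residual values lift to algebraic integers. -/
theorem exists_algInt_red_chibar (l : ℕ) : ∃ a : AlgInt, D.red a = D.chibar l := by
  rw [← Set.mem_range, ← RingHom.coe_range]
  rw [chibar]
  split_ifs
  · obtain ⟨z, hz⟩ := D.exists_omega_lift
    refine ⟨z + 1, ?_⟩
    rw [map_add, map_one, hz, add_assoc, CharTwo.add_self_eq_zero, add_zero]
  · rw [tbar]
    split_ifs
    · refine sum_mem fun a _ => ?_
      split_ifs with ha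
      · obtain ⟨z, hz⟩ := D.exists_algInt_red_eq (ClassGroup.mk0 ⟨a, ha⟩)⁻¹
        exact ⟨z, by rw [hz, map_inv, inv_inv]⟩
      · exact zero_mem _
    · exact zero_mem _

/-- A place of `ℂ` over the residual map. -/
structure Place where
  O : ValuationSubring ℂ
  mem : ∀ a : AlgInt, (a : ℂ) ∈ O
  ker_iff : ∀ a : AlgInt, D.red a = 0 ↔ IsLocalRing.residue O ⟨(a : ℂ), mem a⟩ = 0

theorem nonempty_place : Nonempty D.Place := by
  obtain ⟨O, h, h'⟩ := exists_valuationSubring_ker D.red
  exact ⟨⟨O, h, h'⟩⟩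

namespace Place

variable {D} (P : D.Place)

/-- The residue field. -/
abbrev kappa : Type := IsLocalRing.ResidueField P.O

/-- The inclusion of the algebraic integers. -/
def incl : AlgInt →+* P.O where
  toFun a := ⟨(a : ℂ), P.mem a⟩
  map_one' := rfl
  map_mul' _ _ := rfl
  map_zero' := rfl
  map_add' _ _ := rfl

/-- The reduction in the residue field. -/
def red : AlgInt →+* P.kappa := (IsLocalRing.residue P.O).comp P.incl

theorem red_eq_zero_iff (a : AlgInt) : P.red a = 0 ↔ D.red a = 0 := (P.ker_iff a).symm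

theorem red_eq_red_iff (a b : AlgInt) : P.red a = P.red b ↔ D.red a = D.red b := by
  rw [← sub_eq_zero, ← map_sub, red_eq_zero_iff, map_sub, sub_eq_zero]

/-- The residual system in the residue field. -/
def chi (l : ℕ) : P.kappa := P.red (D.exists_algInt_red_chibar l).choose

theorem red_eq_chi_iff (a : AlgInt) (l : ℕ) : P.red a = P.chi l ↔ D.red a = D.chibar l := by
  rw [chi, red_eq_red_iff, (D.exists_algInt_red_chibar l).choose_spec]

theorem isLift_iff (c : D.ops → ℂ) :
    IsLift P.red (fun l : D.ops => P.chi l) c ↔ IsLift D.red (fun l : D.ops => D.chibar l) c :=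
  forall_congr' fun l => exists_congr fun a => and_congr_right fun _ => P.red_eq_chi_iff a l

theorem chi_ne {l : ℕ} (h : D.chibar l ≠ (l : D.k) + 1) : P.chi l ≠ (l : P.kappa) + 1 := by
  intro he
  refine h ?_
  have := (P.red_eq_chi_iff ((l : AlgInt) + 1) l).mp
    (by rw [map_add, map_natCast, map_one, he])
  rw [← this, map_add, map_natCast, map_one]

theorem red_eq_one {a : AlgInt} (h : D.red a = 1) : P.red a = 1 := by
  rw [← map_one P.red, red_eq_red_iff, h, map_one]

theorem cast_q (q : D.Q) : ((q : ℕ) : P.kappa) = 1 := by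
  rw [← map_natCast P.red]
  exact P.red_eq_one (by rw [map_natCast, D.cast_q])

theorem hcard (q : D.Q) : ((Fintype.card (ZMod (q : ℕ)) + 1 : ℕ) : P.kappa) = 0 := by
  rw [← map_natCast P.red, red_eq_zero_iff, map_natCast, D.hcard]

theorem nu_mem (q : D.Q) (u : RingClass.ResUnits D.K (q : ℕ)) : (D.nu q u : ℂ) ∈ P.O := by
  obtain ⟨a, ha, -⟩ := D.exists_algInt_nu q u
  rw [← ha]
  exact P.mem a

/-- The local characters with values in `O`. -/
def muO (q : D.Q) : RingClass.ResUnits D.K (q : ℕ) →* P.Oˣ :=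
  MonoidHom.toHomUnits
    { toFun := fun u => ⟨(D.nu q u : ℂ), P.nu_mem q u⟩
      map_one' := Subtype.ext (by simp)
      map_mul' := fun u v => Subtype.ext (by simp) }

theorem coe_muO (q : D.Q) (u : RingClass.ResUnits D.K (q : ℕ)) :
    ((P.muO q u : P.O) : ℂ) = (D.nu q u : ℂ) := rfl

theorem residue_muO (q : D.Q) (u : RingClass.ResUnits D.K (q : ℕ)) :
    IsLocalRing.residue P.O (P.muO q u : P.O) = 1 := by
  obtain ⟨a, ha, ha'⟩ := D.exists_algInt_nu q u
  rw [show ((P.muO q u : P.O)) = P.incl a from Subtype.ext ha.symm]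
  exact P.red_eq_one ha'

/-- The Weil data over `O`. -/
def dataO : Weil.Data (ZMod D.f) (fun q : D.Q => ZMod (q : ℕ)) P.O where
  proj := D.weilData.proj
  char q := P.incl.toMonoidHom.compAddChar (D.charInt q)
  char_ne q h := D.weilData.char_ne q (by
    ext t
    exact congrArg (fun z : P.O => (z : ℂ)) (DFunLike.congr_fun h t))
  inv q := IsUnit.invertible (by
    rw [ZMod.card, ← IsLocalRing.residue_ne_zero_iff_isUnit, map_natCast]
    rw [show ((q : ℕ) : IsLocalRing.ResidueField P.O) = 1 from P.cast_q q]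
    exact one_ne_zero)

theorem redChar_ne_one (q : D.Q) :
    Cuspidal.redChar (IsLocalRing.residue P.O) P.dataO q ≠ 1 := by
  intro h
  refine D.charBar_ne_one q ?_
  ext t
  rw [D.charBar_apply, AddChar.one_apply, ← map_one D.red, ← P.red_eq_red_iff, map_one]
  exact DFunLike.congr_fun h t

theorem isCuspidal_muO : Weil.IsCuspidal (F := fun q : D.Q => ZMod (q : ℕ))
    (E := fun q : D.Q => TypeSpace.Residue D.K (q : ℕ)) P.muO where
  trivial q u a ha := Units.ext (Subtype.ext (by
    rw [coe_muO, D.isCuspidal_nu.trivial q u a ha]; rfl))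
  exists_ne_one q := by
    obtain ⟨u, hu, hne⟩ := D.isCuspidal_nu.exists_ne_one q
    refine ⟨u, hu, fun h => hne (Units.ext ?_)⟩
    rw [← P.coe_muO, h]
    rfl

theorem mu_comp (q : D.Q) (u : RingClass.ResUnits D.K (q : ℕ)) :
    ((D.nu q u : ℂˣ) : ℂ) = P.O.subtype (P.muO q u : P.O) := rfl

theorem cuspMap_rep_sigma (g : GL (Fin 2) (ZMod D.f))
    (a : Weil.cusp (F := fun q : D.Q => ZMod (q : ℕ)) P.muO) :
    Weil.cuspMap (F := fun q : D.Q => ZMod (q : ℕ)) (f := P.O.subtype) P.mu_comp
        (Weil.rep P.dataO P.muO g a) =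
      D.sigma g (Weil.cuspMap P.mu_comp a) :=
  Weil.cuspMap_rep P.dataO D.weilData (fun _ => rfl) (fun _ _ => rfl) P.mu_comp g a

theorem rep_muO_neg_one : Weil.rep P.dataO P.muO (-1) = 1 :=
  LinearMap.ext fun a => Weil.cuspMap_injective P.mu_comp Subtype.val_injective (by
    rw [P.cuspMap_rep_sigma, D.sigma_neg_one]; rfl)

/-- **The lifting bound in the residue field.** -/
theorem finrank_le_heckePart_heart (B : Submodule ℂ (H1 D.M D.sigma))
    (hB : B ≤ ⨆ c ∈ {c | IsLift P.red (fun l : D.ops => P.chi l) c},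
      part (opsH1 D.goodPrimes_ops D.sigma) c) :
    finrank ℂ B ≤ finrank P.kappa (heckePart D.M D.goodPrimes_ops P.chi
      (Cuspidal.heartPi (fun q : D.Q => (redTo (D.dvd_f q) :)) P.redChar_ne_one P.hcard)) := by
  have hr := Cuspidal.cuspRed_rep P.dataO P.residue_muO P.isCuspidal_muO P.redChar_ne_one P.hcard
      D.two_ne_zero_q
  have hι := P.cuspMap_rep_sigma
  have hb := Weil.cuspMap_deltaBasis P.mu_comp P.isCuspidal_muO D.isCuspidal_nu
  have hrb := Weil.cuspRed_deltaBasis (f₀ := IsLocalRing.residue P.O) P.residue_muO P.isCuspidal_muO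
  have hch : ∀ (ℓ : D.ops), ∀ x ∈ B, _ := fun ℓ x hx =>
      Weil.exists_list_of_mem_iSup_part (O := P.O) (res := IsLocalRing.residue P.O)
        (T := opsH1 D.goodPrimes_ops D.sigma) (χ := fun l : D.ops => P.chi l)
        (fun c hc i => by obtain ⟨a, ha, ha'⟩ := hc i; exact ⟨P.incl a, ha, ha'⟩) ℓ (hB hx)
  have h := finrank_le_heckePart_of_valuation (res := IsLocalRing.residue P.O)
    (Weil.deltaBasis P.isCuspidal_muO) (Weil.deltaBasis D.isCuspidal_nu) (Pi.basisFun P.kappa _)
    (Weil.cuspMap P.mu_comp) hι hb (Cuspidal.cuspRed (IsLocalRing.residue P.O)) hr hrb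
    IsLocalRing.residue_surjective P.rep_muO_neg_one D.goodPrimes_ops B hch
  refine h.trans_eq (finrank_heckePart_eq _ _ (LinearEquiv.refl _ _) fun g a => ?_)
  simp only [LinearEquiv.refl_apply]
  funext m
  simp only [Cuspidal.heartPi_apply]
  congr!

end Place

/-- **A residue field where the lifting bound holds.** -/
theorem exists_place_liftBound (hne : D.NonEisenstein) :
    ∃ (κ : Type) (_ : Field κ) (red' : AlgInt →+* κ) (χ' : ℕ → κ),
      (∀ c : D.ops → ℂ,
        IsLift red' (fun l : D.ops => χ' l) c ↔ IsLift D.red (fun l : D.ops => D.chibar l) c) ∧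
      (∀ l : ℕ, D.chibar l ≠ (l : D.k) + 1 → χ' l ≠ (l : κ) + 1) ∧
      ∀ B : Submodule ℂ (H1 D.M D.sigma),
        B ≤ ⨆ c ∈ {c | IsLift red' (fun l : D.ops => χ' l) c},
          part (opsH1 D.goodPrimes_ops D.sigma) c →
        (finrank ℂ B : ℤ) ≤ ∑ A ∈ D.Q.powerset, (-2 : ℤ) ^ (D.Q \ A).card *
          (finrank κ (heckePart (D.M * A.prod id) D.goodPrimes_ops χ'
            (Representation.trivial κ (GL (Fin 2) (ZMod D.f)) κ)) : ℤ) := by
  obtain ⟨P⟩ := D.nonempty_place
  refine ⟨P.kappa, inferInstance, P.red, P.chi, P.isLift_iff, fun l => P.chi_ne, fun B hB => ?_⟩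
  obtain ⟨ℓ, hℓ, hℓL0, hℓops, hℓf, -, hχ⟩ := D.exists_nonEisenstein hne
  refine le_of_le_of_eq (Int.ofNat_le.mpr (P.finrank_le_heckePart_heart B hB)) ?_
  have h := finrank_heckePart_heartPi D.goodPrimes_ops (c := P.chi) hℓops hℓf (P.chi_ne hχ)
    (q := fun q : D.Q => (q : ℕ)) Subtype.val_injective (fun q => D.dvd_f q) P.redChar_ne_one
    P.hcard D.q_not_dvd_M D.isTorsionFreeMod_M fun h => hℓL0 (h.trans (dvd_mul_right _ _))
  rw [D.image_Q] at h
  exact h

end HeckeData

end Fermat.Agent.TwoAdic.HeckeSide
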