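import Fermat.Agent.TwoAdic.RingClass.TwoQuot
import Fermat.Prelude.Def_CuspForm_Newforms

/-!
# Data of the Hecke half of the 2-adic argument

`K = ℚ(√(-2m))` imaginary quadratic of discriminant `-8m`, an auxiliary set `Q` of inert primes
`≡ 3 (mod 4)`, an auxiliary prime `r ≡ 11 (mod 12)` split with `χ(P_r) ≠ 1`, and a cubic character
`χ` of the class group with values in an algebraically closed field `k` of characteristic 2.

The residual system `chibar` is the trace of `Ind χ` at the primes not dividing `m f`, except at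
`r`, where it is a root `ω` of `X² + X + 1` (the residual `U_r`).

Owner: helper95 (LT2, Hecke co-captain).
-/

set_option autoImplicit false

noncomputable section

open NumberField
open scoped nonZeroDivisors

namespace Fermat.Agent.TwoAdic.HeckeSide

/-- The input of the Hecke half. -/
structure HeckeData where
  K : Type
  [instField : Field K]
  [instNumberField : NumberField K]
  m : ℕ
  r : ℕ
  Q : Finset ℕ
  k : Type
  [instFieldK : Field k]
  [instCharP : CharP k 2]
  [instAlgClosed : IsAlgClosed k]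
  red : integralClosure ℤ ℂ →+* k
  χ : ClassGroup (𝓞 K) →* kˣ
  finrank_eq : Module.finrank ℚ K = 2
  discr_eq : NumberField.discr K = -(8 * (m : ℤ))
  m_odd : Odd m
  m_squarefree : Squarefree m
  m_ne_one : m ≠ 1
  aux : RingClass.IsAuxSet K (∏ q ∈ Q, q) Q
  Q_nonempty : Q.Nonempty
  Q_not_dvd : ∀ q ∈ Q, ¬ q ∣ 2 * m * r
  r_prime : r.Prime
  r_mod : r % 12 = 11
  r_not_dvd : ¬ r ∣ 2 * m
  χ_cube : ∀ c, χ c ^ 3 = 1
  χ_ne_one : χ ≠ 1

attribute [instance] HeckeData.instField HeckeData.instNumberField HeckeData.instFieldK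
  HeckeData.instCharP HeckeData.instAlgClosed

namespace HeckeData

variable (D : HeckeData)

/-- The conductor `f = ∏ Q`. -/
def f : ℕ := ∏ q ∈ D.Q, q

/-- The level `2 m` of the switched curve. -/
def N : ℕ := 2 * D.m

/-- The primes whose operators are used: those not dividing `m f` (including `2` and `r`). -/
def ops : Set ℕ := {l | l.Prime ∧ ¬ l ∣ D.m * D.f}

/-- The good primes: those not dividing `2 m r f`. -/
def good : Set ℕ := {l | l.Prime ∧ ¬ l ∣ D.N * D.r * D.f}

open Classical in
/-- The trace of `Ind χ` at a prime `l`: the sum of `χ` over the ideals of norm `l`. -/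
def tbar (l : ℕ) : D.k :=
  if l ≠ 0 then
    ∑ a ∈ (Ideal.finite_setOfPred_absNorm_eq (S := 𝓞 D.K) l).toFinset,
      (if ha : a ∈ (Ideal (𝓞 D.K))⁰ then (D.χ (ClassGroup.mk0 ⟨a, ha⟩) : D.k) else 0)
  else 0

/-- A root of `X² + X + 1`. -/
def omega : D.k :=
  (IsAlgClosed.exists_root (Polynomial.X ^ 2 + Polynomial.X + 1 : Polynomial D.k) (by
    rw [show (Polynomial.X ^ 2 + Polynomial.X + 1 : Polynomial D.k).degree = 2 by compute_degree!]
    exact two_ne_zero)).choose

theorem omega_spec : D.omega ^ 2 + D.omega + 1 = 0 := by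
  have h : Polynomial.IsRoot (Polynomial.X ^ 2 + Polynomial.X + 1 : Polynomial D.k) D.omega :=
    (IsAlgClosed.exists_root (Polynomial.X ^ 2 + Polynomial.X + 1 : Polynomial D.k) (by
      rw [show (Polynomial.X ^ 2 + Polynomial.X + 1 : Polynomial D.k).degree = 2 by compute_degree!]
      exact two_ne_zero)).choose_spec
  simpa using h

/-- The residual system on `ops`. -/
def chibar (l : ℕ) : D.k :=
  if l = D.r then D.omega else D.tbar l

/-- No eigenform of level prime to an odd prime `l ∣ m` is congruent to the residual system. -/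
def NoOldForm : Prop :=
  ∀ l : ℕ, l.Prime → l ∣ D.m → ∀ (L : ℕ) [NeZero L], ¬ l ∣ L →
    ∀ g : CuspForm (CongruenceSubgroup.Gamma0 L) 2, g.IsNormalizedEigenform →
      ∀ S : Finset ℕ, ¬ ∀ p : ℕ, p.Prime → p ∉ S →
        ∃ a : integralClosure ℤ ℂ, (a : ℂ) = ModularFormClass.qCoeff g p ∧ D.red a = D.tbar p

/-- The auxiliary prime splits with `χ ≠ 1` on its factors. -/
def RSplit : Prop := D.tbar D.r = 1

/-- A non-Eisenstein prime in every progression `1 (mod L)`. -/
def NonEisenstein : Prop :=
  ∀ L : ℕ, L ≠ 0 → ∃ l : ℕ, l.Prime ∧ ¬ l ∣ L * D.N * D.r * D.f ∧ (l : ZMod L) = 1 ∧ D.tbar l ≠ 0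

end HeckeData

end Fermat.Agent.TwoAdic.HeckeSide
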