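import Fermat.Agent.TwoAdic.RingClass.DiscField
import Fermat.Agent.TwoAdic.HeckeSide.Data

/-!
# The units of the field of a `HeckeData`

A quadratic field of discriminant `-8m` contains a square root of `-2m`; so its units are `±1`.
-/

set_option autoImplicit false

noncomputable section

open NumberField

namespace Fermat.Agent.TwoAdic.HeckeSide

/-- A quadratic field of discriminant `-8m` contains a square root of `-2m`. -/
theorem exists_sqrt_of_discr {K : Type*} [Field K] [NumberField K]
    (h2 : Module.finrank ℚ K = 2) {m : ℕ} (hd : NumberField.discr K = -(8 * (m : ℤ))) :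
    ∃ θ : K, θ ^ 2 = -(2 * m : K) := by
  classical
  let b₀ := NumberField.integralBasis K
  -- an element outside `ℚ`
  obtain ⟨x, hx⟩ : ∃ x : K, ∀ a : ℚ, (a : K) ≠ x := by
    by_contra! h
    have : (Algebra.linearMap ℚ K).range = ⊤ :=
      LinearMap.range_eq_top.mpr fun x => (h x).imp fun a ha => by simpa using ha
    have h' := LinearMap.finrank_range_le (Algebra.linearMap ℚ K)
    rw [this, finrank_top, h2, Module.finrank_self] at h'
    omega
  have hli : LinearIndependent ℚ ![(1 : K), x] :=
    (LinearIndependent.pair_iff' one_ne_zero).mpr fun a ha => hx a (by rw [← ha, Rat.smul_def, mul_one])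
  let b : Module.Basis (Fin 2) ℚ K := basisOfLinearIndependentOfCardEqFinrank hli (by simp [h2])
  have hb0 : b 0 = 1 := by simp [b]
  have hb1 : b 1 = x := by simp [b]
  obtain ⟨a, c, hac⟩ : ∃ a c : ℚ, x * x = a + c * x := by
    refine ⟨b.repr (x * x) 0, b.repr (x * x) 1, ?_⟩
    conv_lhs => rw [← b.sum_repr (x * x)]
    simp [Fin.sum_univ_two, hb0, hb1, Rat.smul_def]
  -- the discriminant of `(1, x)`
  have ht1 : Algebra.trace ℚ K (1 : K) = 2 := by
    simpa [h2] using Algebra.trace_algebraMap (R := ℚ) (S := K) (1 : ℚ)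
  have htx : Algebra.trace ℚ K x = c := by
    rw [Algebra.trace_eq_matrix_trace b, Matrix.trace_fin_two, Algebra.leftMulMatrix_eq_repr_mul,
      Algebra.leftMulMatrix_eq_repr_mul, hb0, hb1, mul_one, hac]
    have h1 : b.repr x = Finsupp.single 1 1 := by rw [← hb1, b.repr_self]
    have h0 : b.repr ((a : K) + (c : K) * x) = a • b.repr (b 0) + c • b.repr (b 1) := by
      rw [← map_smul b.repr, ← map_smul b.repr, ← map_add, hb0, hb1, Rat.smul_def, Rat.smul_def,
        mul_one]
    rw [h1, h0, b.repr_self, b.repr_self]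
    simp
  have htxx : Algebra.trace ℚ K (x * x) = 2 * a + c * c := by
    rw [hac, show (a : K) + (c : K) * x = a • (1 : K) + c • x by simp [Rat.smul_def], map_add,
      map_smul, map_smul, ht1, htx, smul_eq_mul, smul_eq_mul]
    ring
  have hdx : Algebra.discr ℚ b = 4 * a + c ^ 2 := by
    rw [Algebra.discr_def, Matrix.det_fin_two]
    simp only [Algebra.traceMatrix_apply, Algebra.traceForm_apply, hb0, hb1, one_mul, mul_one,
      ht1, htx, htxx]
    ring
  -- compare with an integral basis
  let e : Module.Free.ChooseBasisIndex ℤ (𝓞 K) ≃ Fin 2 := b₀.indexEquiv b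
  let b₁ := b₀.reindex e
  have hd₁ : Algebra.discr ℚ b₁ = (NumberField.discr K : ℚ) := by
    rw [show (b₁ : Fin 2 → K) = b₀ ∘ e.symm from b₀.coe_reindex e, Algebra.discr_reindex,
      NumberField.coe_discr]
  set d : ℚ := (b₁.toMatrix b).det
  have hd0 : d ≠ 0 := by
    intro h0
    have h := congrArg Matrix.det (b₁.toMatrix_mul_toMatrix_flip b)
    rw [Matrix.det_mul, Matrix.det_one, show (b₁.toMatrix b).det = 0 from h0, zero_mul] at h
    exact zero_ne_one h
  have hcmp : Algebra.discr ℚ b = d ^ 2 * Algebra.discr ℚ b₁ := by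
    rw [← b₁.toMatrix_map_vecMul b, Algebra.discr_of_matrix_vecMul]
  refine ⟨(2 * x - c) / (2 * d), ?_⟩
  have key : (4 * a + c ^ 2 : K) = (d : K) ^ 2 * (-(8 * m : K)) := by
    have h' : (4 * a + c ^ 2 : ℚ) = d ^ 2 * (-(8 * (m : ℚ))) := by
      rw [← hdx, hcmp, hd₁, hd]; push_cast; ring
    have := congrArg (Rat.cast : ℚ → K) h'
    push_cast at this
    exact this
  have hdK : (d : K) ≠ 0 := by exact_mod_cast hd0
  field_simp
  linear_combination 4 * hac + key

/-- The units of the field of a `HeckeData` are `±1`. -/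
theorem HeckeData.units_eq (D : HeckeData) (u : (𝓞 D.K)ˣ) : u = 1 ∨ u = -1 := by
  obtain ⟨θ, hθ⟩ := exists_sqrt_of_discr D.finrank_eq D.discr_eq
  exact RingClass.units_eq hθ D.m_odd.pos.ne' D.finrank_eq D.m_odd D.m_squarefree u

end Fermat.Agent.TwoAdic.HeckeSide
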