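import Fermat.Agent.TwoAdic.HeckeSide.WeilInstance
import Fermat.Agent.TwoAdic.HeckeSide.Units
import Fermat.Agent.TwoAdic.HeckeSide.LiftBound
import Fermat.Agent.TwoAdic.Count.LiftCount
import Fermat.Agent.TwoAdic.TypeSpace.Periods
import Fermat.Agent.TwoAdic.TypeSpace.GoodPart.Main
import Fermat.Agent.TwoAdic.TypeSpace.Universal

/-!
# The systems of the Hecke half

`2 #G''` is at most the sum over the complex lifts of the residual system of the dimensions of the
fine parts of level `2 m r f` which are new at the primes of `Q`: the good part of the type space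
has dimension at least `#G''`, two copies of it go by periods into the cohomology of the type, and
lifting bounds that by the alternating sum of residual parts.
-/

set_option autoImplicit false

noncomputable section

open NumberField Module
open Fermat.Agent.TwoAdic.Cohom Fermat.Agent.TwoAdic.TypeSpace Fermat.Agent.TwoAdic.RingClass

namespace Fermat.Agent.TwoAdic.HeckeSide

namespace HeckeData

variable (D : HeckeData)

instance instFiniteTypeSpace : FiniteDimensional ℂ (Weil.typeSpace D.f D.M D.sigma) :=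
  Weil.finiteDimensional_typeSpace D.isTorusFixed D.isCuspidalType_M D.span_w0

/-- Periods of two copies of forms of the type. -/
def periods : Weil.typeSpace D.f D.M D.sigma × Weil.typeSpace D.f D.M D.sigma →ₗ[ℂ]
    H1 D.M D.sigma :=
  Weil.selfPeriodPair D.isCuspidalType_M D.selfDual D.selfDual_sigma

theorem periods_injective : Function.Injective D.periods :=
  Weil.selfPeriodPair_injective D.isCuspidalType_M D.selfDual D.selfDual_sigma D.isTorusFixed
    D.span_w0

theorem periods_opsType (l : D.ops)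
    (x : Weil.typeSpace D.f D.M D.sigma × Weil.typeSpace D.f D.M D.sigma) :
    D.periods (TypeSpace.opsType D.M D.sigma D.goodPrimes_ops l x.1,
        TypeSpace.opsType D.M D.sigma D.goodPrimes_ops l x.2) =
      opsH1 D.goodPrimes_ops D.sigma l (D.periods x) :=
  Weil.selfPeriodPair_heckeType D.isCuspidalType_M D.selfDual D.selfDual_sigma _ _ x

/-- A form of the type of level `2 m` reducing to each ideal series. -/
def UniversalForms : Prop :=
  ∀ g : G2 D.K D.f, ∃ Φ : Weil.typeSpace D.f (2 * D.m) D.sigma, ∀ n,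
    ∃ a : integralClosure ℤ ℂ, (a : ℂ) = ModularFormClass.qCoeff (Weil.evalFun D.f D.w0 Φ.1) n ∧
      D.red a = series (toG2 D.K D.f) D.ringChar g n

theorem universalForms : D.UniversalForms := fun g => D.exists_universal g

theorem natCard_G2 :
    Nat.card (RingClass.G2 D.K D.f) =
      2 ^ (padicValNat 2 (Nat.card (ClassGroup (𝓞 D.K))) + D.Q.card) :=
  D.aux'.natCard_G2 D.units_eq

end HeckeData

/-- **Enough lifts of the residual system.** -/
theorem exists_lift_systems (D : HeckeData) (hr : D.RSplit) (hne : D.NonEisenstein) :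
    ∃ CC : Finset (D.ops → ℂ), (∀ c ∈ CC, Count.IsLift D.red (fun l : D.ops => D.chibar l) c) ∧
      2 * 2 ^ (padicValNat 2 (Nat.card (ClassGroup (𝓞 D.K))) + D.Q.card) ≤
        ∑ c ∈ CC, Count.fineRank (D.N * D.r * D.f) (Count.extendSystem c) {2, D.r}
          (D.N * D.r * D.f) D.Q := by
  obtain ⟨κ, _, red', χ', hiff, hχ', hB⟩ := D.exists_place_liftBound hne
  obtain ⟨ℓ, hℓ, hℓL0, -, -, hℓM, hχ⟩ := D.exists_nonEisenstein hne
  obtain ⟨A, -, hn, hle⟩ := D.exists_stable_submodule hr D.universalForms
  have hset : {c : D.ops → ℂ | Count.IsLift D.red (fun l : D.ops => D.chibar l) c} =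
      {c | Count.IsLift red' (fun l : D.ops => χ' l) c} := Set.ext fun c => (hiff c).symm
  rw [hset] at hle
  have hM : D.M * D.Q.prod id = D.L0 := rfl
  have hQ : ∀ p ∈ D.Q, p.Prime ∧ ¬ p ∣ D.M ∧ p ∉ ({2, D.r} : Finset ℕ) := fun p hp =>
    ⟨D.aux'.prime p hp, D.q_not_dvd_M ⟨p, hp⟩, D.q_not_mem_E ⟨p, hp⟩⟩
  have h1 := Count.exists_systems_two_mul_le (V := Weil.typeSpace D.f D.M D.sigma)
    (ρ := D.sigma) (χ := χ') (Q := D.Q) (E := {2, D.r}) (L0 := D.L0)
    (hgood := D.goodPrimes_ops) red' hQ D.isTorsionFreeMod_M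
    (dvd_of_eq hM) D.mem_ops_iff hℓ hℓL0 hℓM (hχ' ℓ hχ)
    (TypeSpace.opsType D.M D.sigma D.goodPrimes_ops) D.periods D.periods_injective
  obtain ⟨CC, hCC, hsum⟩ :=
    h1 D.periods_opsType D.instFiniteTypeSpace A hle hB (D.natCard_G2.symm.trans_le hn)
  exact ⟨CC, fun c hc => (hiff c).mp (hCC c hc), hsum⟩

end Fermat.Agent.TwoAdic.HeckeSide
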