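import Fermat.Agent.TwoAdic.HeckeSide.GoodForm
import Fermat.Agent.TwoAdic.HeckeSide.Systems
import Fermat.Agent.TwoAdic.Count.Systems
import Fermat.Agent.TwoAdic.Count.TwoTbar

/-!
# The output of the Hecke half

At least `#G'' = 2^(v₂ h) · 2^|Q|` newforms at all the primes of `m f`, of level `2 m f`, congruent
to the residual system, with pairwise different good systems.

Owner: helper95 (LT2, Hecke co-captain).
-/

set_option autoImplicit false

noncomputable section

open NumberField

namespace Fermat.Agent.TwoAdic.HeckeSide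

/-- **The Hecke half**: `#G''` good forms with pairwise different good systems. -/
theorem exists_goodForms (D : HeckeData) (hr : D.RSplit) (hold : D.NoOldForm)
    (hne : D.NonEisenstein) :
    ∃ (s : Finset (CuspForm (CongruenceSubgroup.Gamma0 (D.N * D.f)) 2)),
      2 ^ (padicValNat 2 (Nat.card (ClassGroup (𝓞 D.K))) + D.Q.card) ≤ s.card ∧
      (∀ g ∈ s, IsGoodForm D g) ∧
      ∀ g ∈ s, ∀ g' ∈ s, g ≠ g' →
        ∃ l ∈ D.good, ModularFormClass.qCoeff g l ≠ ModularFormClass.qCoeff g' l := by
  obtain ⟨CC, hlift, hcount⟩ := exists_lift_systems D hr hne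
  exact Count.exists_goodForms_of_fineRank D hold D.tbar_two CC hlift hcount

end Fermat.Agent.TwoAdic.HeckeSide
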