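/-
Forms of level prime to `l` are not congruent to a residual representation ramified at `l`.
-/
import Fermat.Agent.S29
import Fermat.Agent.Density.CharpolyDetermines
import Fermat.Agent.Density.Transfer
import Fermat.Agent.Density.BrauerNesbitt
import Fermat.Prelude.Def_CuspForm_Newforms

set_option autoImplicit false

noncomputable section

open Polynomial
open CongruenceSubgroup (Gamma0)

namespace Fermat.Agent.TwoAdic.HeckeSide

local notation "ℚ̄" => AlgebraicClosure ℚ
local notation "Γℚ" => (AlgebraicClosure ℚ ≃ₐ[ℚ] AlgebraicClosure ℚ)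

/-- `g` is congruent to `ρ` at almost all Frobenius elements, which have determinant one. -/
def CongruentToRep {D : ℕ} (g : CuspForm (Gamma0 D) 2) {k : Type} [Field k]
    (φ : integralClosure ℤ ℂ →+* k) (ρ : ResidualGaloisRep k) : Prop :=
  ∃ S : Finset ℕ, ∀ p : ℕ, p.Prime → p ∉ S → ∀ A : ValuationSubring ℚ̄, A.LiesOverPrime p →
    ∀ σ : Γℚ, A.IsFrobeniusAt σ p →
      LinearMap.det (ρ.ρ σ) = 1 ∧
      ∃ a : integralClosure ℤ ℂ, (a : ℂ) = ModularFormClass.qCoeff g p ∧
        LinearMap.trace k ρ.V (ρ.ρ σ) = φ a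

theorem charpoly_eq_of_trace_det {k : Type} [Field k] {V : Type} [AddCommGroup V] [Module k V]
    [Module.Finite k V] (hV : Module.finrank k V = 2) (f : Module.End k V) {t d : k}
    (ht : LinearMap.trace k V f = t) (hd : LinearMap.det f = d) :
    LinearMap.charpoly f = X ^ 2 - C t * X + C d := by
  let b := Module.finBasisOfFinrankEq k V hV
  rw [← LinearMap.charpoly_toMatrix f b, Density.charpoly_fin_two_eq,
    ← LinearMap.trace_eq_matrix_trace k b f, LinearMap.det_toMatrix b f, ht, hd]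

/-- `hOld`: there is no eigenform of level prime to `l` congruent to a residual representation
ramified at `l`. -/
theorem false_of_congruent_of_not_dvd {k : Type} [Field k] [CharP k 2]
    (φ : integralClosure ℤ ℂ →+* k) (ρ : ResidualGaloisRep k) (hρ : ρ.IsAbsolutelyIrreducible)
    {l : ℕ} (hl : l.Prime) (hl2 : l ≠ 2) (hram : ¬ ρ.IsUnramifiedAt l)
    {D : ℕ} {g : CuspForm (Gamma0 D) 2} (hg : g.IsNormalizedEigenform) (hlD : ¬ l ∣ D)
    (hcong : CongruentToRep g φ ρ) : False := by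
  obtain ⟨ρg, hatt, hunr⟩ := Fermat.Agent.S29.result hg Nat.prime_two φ
  obtain ⟨S, hS⟩ := hcong
  have hD : D ≠ 0 := fun h => hlD (h ▸ dvd_zero l)
  refine hram (Density.residual_isUnramifiedAt_of_isEquiv ?_ (hunr l hl ?_))
  · refine ⟨(Classical.choice
      (Density.residual_isEquiv_of_frobenius ρ ρg (S ∪ D.primeFactors ∪ {2}) hρ ?_)).symm⟩
    intro p hp hpS A hA σ hσ
    simp only [Finset.mem_union, Finset.mem_singleton, not_or] at hpS
    obtain ⟨⟨hpS, hpD⟩, hp2⟩ := hpS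
    have hpD' : ¬ p ∣ D := fun h => hpD (Nat.mem_primeFactors.2 ⟨hp, h, hD⟩)
    have hk : (p : k) = 1 := by
      rcases hp.eq_two_or_odd' with h | ⟨m, rfl⟩
      · exact absurd h hp2
      · rw [Nat.cast_add, Nat.cast_mul, Nat.cast_ofNat, CharTwo.two_eq_zero, zero_mul, zero_add,
          Nat.cast_one]
    obtain ⟨hdet, a, ha, htr⟩ := hS p hp hpS A hA σ hσ
    obtain ⟨a', ha', hchar⟩ := hatt p hp hpD' (by rw [hk]; exact one_ne_zero) A hA σ hσ
    rw [hchar, charpoly_eq_of_trace_det ρ.finrank_eq _ htr hdet,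
      show a' = a from Subtype.ext (ha'.trans ha.symm), hk]
  · intro h
    rcases hl.dvd_mul.mp h with h | h
    · exact hlD h
    · exact hl2 ((Nat.prime_dvd_prime_iff_eq hl Nat.prime_two).mp h)

/-- A form congruent to a residual representation ramified at `l ∥ N` is new at `l`. -/
theorem isNewformAt_of_congruent {k : Type} [Field k] [CharP k 2]
    (φ : integralClosure ℤ ℂ →+* k) (ρ : ResidualGaloisRep k) (hρ : ρ.IsAbsolutelyIrreducible)
    {l : ℕ} (hl : l.Prime) (hl2 : l ≠ 2) (hram : ¬ ρ.IsUnramifiedAt l)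
    {N : ℕ} {f : CuspForm (Gamma0 N) 2} (hf : f.IsNormalizedEigenform) (hlN : l ∣ N)
    (hl2N : ¬ l ^ 2 ∣ N) (hcong : CongruentToRep f φ ρ) : f.IsNewformAt l := by
  refine ⟨hf, hlN, fun ⟨g, hg, hgf⟩ => ?_⟩
  obtain ⟨S, hS⟩ := hcong
  have hN : N ≠ 0 := fun h => hl2N (h ▸ dvd_zero _)
  refine false_of_congruent_of_not_dvd φ ρ hρ hl hl2 hram hg ?_ ⟨S ∪ N.primeFactors, ?_⟩
  · intro h
    apply hl2N
    obtain ⟨c, hc⟩ := h
    exact ⟨c, by rw [pow_two, mul_assoc, ← hc, Nat.mul_div_cancel' hlN]⟩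
  intro p hp hpS A hA σ hσ
  simp only [Finset.mem_union, not_or] at hpS
  obtain ⟨hdet, a, ha, htr⟩ := hS p hp hpS.1 A hA σ hσ
  exact ⟨hdet, a, ha.trans (hgf p hp fun h => hpS.2 (Nat.mem_primeFactors.2 ⟨hp, h, hN⟩)).symm,
    htr⟩

end Fermat.Agent.TwoAdic.HeckeSide
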