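/-
No old forms: for data coming from a switched curve, no eigenform of level prime to a bad prime is
congruent to the residual system, since `V[2]` is ramified there.
-/
import Fermat.Agent.TwoAdic.HeckeSide.Data
import Fermat.Agent.TwoAdic.HeckeSide.OldExclusion
import Fermat.Agent.TwoAdic.Switch.Galois.Places
import Fermat.Agent.TwoAdic.Points.Systems

set_option autoImplicit false

noncomputable section

open Polynomial IsLocalRing Matrix
open scoped WeierstrassCurve.Affine TensorProduct

namespace Fermat.Agent.TwoAdic.HeckeSide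

local notation "ℚ̄" => AlgebraicClosure ℚ
local notation "Γℚ" => (AlgebraicClosure ℚ ≃ₐ[ℚ] AlgebraicClosure ℚ)

/-- Trace and determinant from a quadratic characteristic polynomial. -/
theorem trace_det_of_charpoly {k : Type} [Field k] {V : Type} [AddCommGroup V] [Module k V]
    [Module.Finite k V] (hV : Module.finrank k V = 2) (f : Module.End k V) {t d : k}
    (h : LinearMap.charpoly f = X ^ 2 - C t * X + C d) :
    LinearMap.trace k V f = t ∧ LinearMap.det f = d := by
  let b := Module.finBasisOfFinrankEq k V hV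
  rw [← LinearMap.charpoly_toMatrix f b, Density.charpoly_fin_two_eq] at h
  have h0 := congrArg (fun q : k[X] => q.coeff 0) h
  have h1 := congrArg (fun q : k[X] => q.coeff 1) h
  simp at h0 h1
  rw [LinearMap.trace_eq_matrix_trace k b]
  exact ⟨h1, by simpa using h0⟩

/-- The residue field of `ℤ₂` inside a field of characteristic two. -/
def residueTwoHom (k : Type) [Field k] [CharP k 2] : ResidueField ℤ_[2] →+* k :=
  (ZMod.castHom (dvd_refl 2) k).comp PadicInt.residueField.toRingHom

/-- The residual representation of the curve over a field of characteristic two. -/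
def residualTwoOver (V : WeierstrassCurve ℤ) (hΔ : V.Δ ≠ 0) (k : Type) [Field k] [CharP k 2] :
    ResidualGaloisRep k :=
  (residualTwo V hΔ).baseChangeAlong (residueTwoHom k)

theorem residualTwoOver_not_isUnramifiedAt {V : WeierstrassCurve ℤ} (hV : IsTresModel V)
    (k : Type) [Field k] [CharP k 2] {l : ℕ} (hl : l.Prime) (hl2 : l ≠ 2)
    (hbad : (l : ℤ) ∣ V.Δ) :
    ¬ (residualTwoOver V hV.delta_ne_zero k).IsUnramifiedAt l := by
  intro hunr
  have := EC.isElliptic_map_rat hV.delta_ne_zero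
  obtain ⟨A, hA⟩ := Galois.exists_valuationSubring_liesOverPrime (L := ℚ̄) hl
  obtain ⟨b, -, hb⟩ := exists_inertia_eq_transvection hl hl2 hV.delta_ne_zero hbad
    (hV.semistable l hl hbad) (hV.odd_val l hl hbad) A hA
  obtain ⟨σ, hσ, hmat⟩ := hb 1
  have h2 := redMat_levelHom b one_ne_zero σ
  rw [hmat] at h2
  letI : Algebra (ResidueField ℤ_[2]) k := (residueTwoHom k).toAlgebra
  have h1 : (((EC.tateRep (V.map (Int.castRingHom ℚ)) 2).residual.ρ σ)).baseChange k = 1 :=
    hunr A hA σ hσ
  have h3 := congrArg (LinearMap.toMatrix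
    (Algebra.TensorProduct.basis k (residualBasis b))
    (Algebra.TensorProduct.basis k (residualBasis b))) h1
  rw [LinearMap.toMatrix_baseChange, LinearMap.toMatrix_one, toMatrix_residual] at h3
  have h4 := congrFun (congrFun h3 0) 1
  simp only [Matrix.map_apply, Matrix.one_apply_ne (show (0 : Fin 2) ≠ 1 by decide)] at h4
  rw [map_eq_zero] at h4
  have h5 : PadicInt.toZMod (LinearMap.toMatrix b b
      ((EC.tateRep (V.map (Int.castRingHom ℚ)) 2).ρ σ) 0 1) = 0 := by
    rw [← map_zero (PadicInt.toZMod (p := 2)), ← residue_eq_residue_iff, map_zero]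
    exact h4
  have h6 := congrFun (congrFun h2 0) 1
  rw [Matrix.map_apply, h5, coe_redGL] at h6
  simp at h6

/-- At good odd primes the residual representation has determinant one and trace `aₗ`. -/
theorem residualTwoOver_frobenius {V : WeierstrassCurve ℤ} (hΔ : V.Δ ≠ 0)
    (k : Type) [Field k] [CharP k 2] {l : ℕ} (hl : l.Prime) (hl2 : l ≠ 2)
    (hgood : V.IsGoodPrimeFor l) {A : ValuationSubring ℚ̄} (hA : A.LiesOverPrime l) {σ : Γℚ}
    (hσ : A.IsFrobeniusAt σ l) :
    LinearMap.trace k _ ((residualTwoOver V hΔ k).ρ σ) = ((V.apOfModel l : ℤ) : k) ∧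
      LinearMap.det ((residualTwoOver V hΔ k).ρ σ) = 1 := by
  have := EC.isElliptic_map_rat hΔ
  refine trace_det_of_charpoly (residualTwoOver V hΔ k).finrank_eq _ ?_
  have hk : (l : k) = 1 := by
    rcases hl.eq_two_or_odd' with h | ⟨m, rfl⟩
    · exact absurd h hl2
    · rw [Nat.cast_add, Nat.cast_mul, Nat.cast_ofNat, CharTwo.two_eq_zero, zero_mul, zero_add,
        Nat.cast_one]
  show LinearMap.charpoly (((residualTwo V hΔ).baseChangeAlong (residueTwoHom k)).ρ σ) = _
  rw [charpoly_baseChangeAlong_eq,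
    show residualTwo V hΔ = (EC.tateRep (V.map (Int.castRingHom ℚ)) 2).residual from rfl,
    charpoly_residual_eq, BadPrime.tateRep_charpoly_frobenius V 2 hΔ hl hl2 hgood hA hσ]
  simp only [Polynomial.map_add, Polynomial.map_sub, Polynomial.map_mul, Polynomial.map_pow,
    Polynomial.map_X, map_intCast, map_natCast, Polynomial.map_natCast, Polynomial.map_intCast]
  rw [← map_natCast (Polynomial.C : k →+* k[X]), hk]

/-- `NoOldForm` for data coming from a switched curve. -/
theorem noOldForm_of_curve' (D : HeckeData) {V : WeierstrassCurve ℤ} (hV : IsTresModel V)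
    (hm : ∀ l : ℕ, l.Prime → l ∣ D.m → (l : ℤ) ∣ V.Δ) (T : Finset ℕ)
    (htr : ∀ l : ℕ, l.Prime → l ∉ T → D.tbar l = ((V.apOfModel l : ℤ) : D.k)) :
    D.NoOldForm := by
  intro l hl hlm L _ hlL g hg S hS
  have hl2 : l ≠ 2 := by
    rintro rfl
    obtain ⟨j, hj⟩ := D.m_odd
    omega
  refine false_of_congruent_of_not_dvd D.red (residualTwoOver V hV.delta_ne_zero D.k)
    (RT.isAbsolutelyIrreducible_baseChangeAlong _ _ (residualIrreducible V hV)) hl hl2
    (residualTwoOver_not_isUnramifiedAt hV D.k hl hl2 (hm l hl hlm)) hg hlL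
    ⟨S ∪ T ∪ badPrimes V, fun p hp hpS A hA σ hσ => ?_⟩
  simp only [Finset.mem_union, not_or] at hpS
  obtain ⟨⟨hpS, hpT⟩, hpV⟩ := hpS
  have hgood : V.IsGoodPrimeFor p := fun h => hpV ((mem_badPrimes_iff hV.delta_ne_zero).mpr ⟨hp, h⟩)
  have hp2 : p ≠ 2 := fun h => hgood (h ▸ hV.two_dvd)
  obtain ⟨ht, hd⟩ := residualTwoOver_frobenius hV.delta_ne_zero D.k hp hp2 hgood hA hσ
  obtain ⟨a, ha, hra⟩ := hS p hp hpS
  exact ⟨hd, a, ha, by rw [ht, hra, htr p hp hpT]⟩

/-- `NoOldForm`, with `2 m` the product of the bad primes. -/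
theorem noOldForm_of_curve (D : HeckeData) {V : WeierstrassCurve ℤ} (hV : IsTresModel V)
    (hm : 2 * D.m = ∏ p ∈ badPrimes V, p) (T : Finset ℕ)
    (htr : ∀ l : ℕ, l.Prime → l ∉ T → D.tbar l = ((V.apOfModel l : ℤ) : D.k)) :
    D.NoOldForm := by
  refine noOldForm_of_curve' D hV (fun l hl hlm => ?_) T htr
  have h : l ∣ ∏ p ∈ badPrimes V, p := hm ▸ hlm.mul_left 2
  obtain ⟨p, hp, hlp⟩ := (Prime.dvd_finsetProd_iff hl.prime _).mp h
  obtain ⟨hp1, hp2⟩ := (mem_badPrimes_iff hV.delta_ne_zero).mp hp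
  rwa [(Nat.prime_dvd_prime_iff_eq hl hp1).mp hlp]

end Fermat.Agent.TwoAdic.HeckeSide
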