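import Fermat.Agent.TwoAdic.HeckeSide.Data
import Fermat.Agent.TwoAdic.RingClass.Trace
import Fermat.Agent.TwoAdic.RingClass.DiscField
import Fermat.Agent.TwoAdic.Switch.Galois.Places
import Fermat.Agent.Density.FrobeniusDensity

/-!
# The data of the Hecke half of a switched curve

From a tres model `V`, `K = ℚ(√Δ)`, an auxiliary set `Q` and a maximal ideal `𝔪 ∋ 2` of the
algebraic integers: the `HeckeData` with residual system `a_l(V) mod 2`, an auxiliary prime
`r ≡ 11 (mod 12)` with Frobenius of order `3` on `V[2]`, and non-Eisenstein primes.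
-/

set_option autoImplicit false

noncomputable section

open NumberField WeierstrassCurve
open scoped nonZeroDivisors WeierstrassCurve.Affine

namespace Fermat.Agent.TwoAdic.HeckeSide

local notation "Qb" => AlgebraicClosure ℚ
local notation "Γℚ" => (AlgebraicClosure ℚ ≃ₐ[ℚ] AlgebraicClosure ℚ)

variable {V : WeierstrassCurve ℤ}

/-- Complex conjugation is odd on the roots when `Δ < 0`. -/
theorem sign_perm_complexConjugation (hV : IsTresModel V) {T : Selmer.CubicRoots}
    (hT : ∀ i, RingClass.twoDiv V (T.root i) = 0) :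
    Equiv.Perm.sign (T.perm complexConjugation) = -1 := by
  obtain ⟨s, hs⟩ := IsAlgClosed.exists_pow_nat_eq ((V.Δ : Qb)) (n := 2) (by norm_num)
  refine (Int.units_eq_one_or _).resolve_left fun h => ?_
  have h' := congrArg complexEmbedding
    ((RingClass.apply_sqrtDiscr_eq_self_iff hT hV.delta_ne_zero _ hs).mpr h)
  rw [complexEmbedding_complexConjugation] at h'
  obtain ⟨r, hr⟩ := Complex.conj_eq_iff_real.1 h'
  have h2 : (complexEmbedding s) ^ 2 = (V.Δ : ℂ) := by rw [← map_pow, hs, map_intCast]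
  rw [hr, ← Complex.ofReal_pow] at h2
  have h3 := congrArg Complex.re h2
  simp only [Complex.ofReal_re, Complex.intCast_re] at h3
  have : (V.Δ : ℝ) < 0 := by exact_mod_cast hV.delta_neg
  nlinarith [sq_nonneg r]

/-- Some element has order three on the roots. -/
theorem exists_threeCycle (T : Selmer.CubicRoots) :
    ∃ a : Γℚ, Equiv.Perm.sign (T.perm a) = 1 ∧ T.perm a ≠ 1 := by
  have key : ∀ p q : Equiv.Perm (Fin 3), p 0 = 1 → q 0 = 2 →
      (Equiv.Perm.sign p = 1 ∧ p ≠ 1) ∨ (Equiv.Perm.sign q = 1 ∧ q ≠ 1) ∨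
        (Equiv.Perm.sign (p * q) = 1 ∧ p * q ≠ 1) := by decide
  obtain ⟨a, ha⟩ := T.transitive 1
  obtain ⟨b, hb⟩ := T.transitive 2
  rcases key _ _ ha hb with h | h | h
  · exact ⟨a, h⟩
  · exact ⟨b, h⟩
  · exact ⟨a * b, by rw [map_mul]; exact h⟩

/-- A transposition and a three-cycle do not commute. -/
theorem mul_ne_mul_of_sign : ∀ s t : Equiv.Perm (Fin 3),
    Equiv.Perm.sign s = -1 → Equiv.Perm.sign t = 1 → t ≠ 1 → s * t ≠ t * s := by decide

/-- An element of order three on the roots with prescribed cyclotomic behaviour `1`. -/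
theorem exists_threeCycle_cycloChar_one (hV : IsTresModel V) {T : Selmer.CubicRoots}
    (hT : ∀ i, RingClass.twoDiv V (T.root i) = 0) (L : ℕ) [NeZero L] :
    ∃ g : Γℚ, Equiv.Perm.sign (T.perm g) = 1 ∧ T.perm g ≠ 1 ∧ EC.cycloChar L g = 1 := by
  obtain ⟨a, ha, ha1⟩ := exists_threeCycle T
  refine ⟨complexConjugation * a * complexConjugation⁻¹ * a⁻¹, ?_, fun h => ?_, ?_⟩
  · simp [ha]
  · refine mul_ne_mul_of_sign _ _ (sign_perm_complexConjugation hV hT) ha ha1 ?_
    simp only [map_mul, map_inv, mul_inv_eq_iff_eq_mul] at h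
    exact h
  · rw [map_mul, map_mul, map_mul, map_inv, map_inv, mul_right_comm, mul_inv_cancel_right]
    exact mul_inv_cancel _

/-- An element of order three on the roots acting by `-1` on the twelfth roots of unity. -/
theorem exists_threeCycle_cycloChar_twelve (hV : IsTresModel V) {T : Selmer.CubicRoots}
    (hT : ∀ i, RingClass.twoDiv V (T.root i) = 0) :
    ∃ g : Γℚ, Equiv.Perm.sign (T.perm g) = 1 ∧ T.perm g ≠ 1 ∧ EC.cycloChar 12 g = -1 := by
  obtain ⟨q, hq, h5, hd⟩ := hV.exists_five_le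
  obtain ⟨A, hA⟩ := Galois.exists_valuationSubring_liesOverPrime (L := Qb) hq
  obtain ⟨h₀, hin, P, hP, hPne⟩ :=
    exists_two_torsion_inertia_ne hV.delta_ne_zero hq hA (hV.odd_val q hq hd)
  have hP0 : P ≠ 0 := fun h => hPne (by subst h; exact Affine.Point.map_zero _)
  obtain ⟨i, y, hi, rfl⟩ := RingClass.exists_root_of_point hT hV.delta_ne_zero hP hP0
  have hmove : T.perm h₀ ≠ 1 := fun h =>
    hPne ((RingClass.smul_eq_self_iff h₀ hP).mpr (by rw [h]; rfl))
  have hodd : Equiv.Perm.sign (T.perm h₀) = -1 := (Int.units_eq_one_or _).resolve_left fun h =>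
    hmove (RingClass.noEvenInertia hV hT q hq A hA h₀ hin h)
  have hχ : EC.cycloChar 12 h₀ = 1 := EC.cycloChar_eq_one_of_mem_inertia hq (fun h => by
    have := Nat.le_of_dvd (by norm_num) h
    interval_cases q <;> first | omega | norm_num at hq) hA hin
  have hc : EC.cycloChar 12 complexConjugation = -1 :=
    Units.ext (by rw [EichlerShimura.cycloChar_complexConjugation]; rfl)
  obtain ⟨a, ha, ha1⟩ := exists_threeCycle T
  have hsc := sign_perm_complexConjugation hV hT
  by_cases hst : T.perm complexConjugation * T.perm h₀ = 1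
  · refine ⟨complexConjugation * (a * h₀ * a⁻¹), ?_, fun h => ?_, ?_⟩
    · simp [hsc, hodd, ha]
    · refine mul_ne_mul_of_sign _ _ hodd ha ha1 ?_
      simp only [map_mul, map_inv] at h
      have h' := mul_left_cancel (hst.trans h.symm)
      exact (eq_mul_inv_iff_mul_eq.mp h').symm ▸ rfl
    · rw [map_mul, map_mul, map_mul, map_inv, hc, hχ, mul_one, mul_inv_cancel, mul_one]
  · refine ⟨complexConjugation * h₀, ?_, ?_, ?_⟩
    · simp [hsc, hodd]
    · simpa only [map_mul] using hst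
    · rw [map_mul, hc, hχ, mul_one]

/-- Chebotarev: a good prime outside `S` with odd `a_l` and cyclotomic class a power of that of an
element of order three on the roots. -/
theorem exists_prime_apOfModel_odd (hV : IsTresModel V) {T : Selmer.CubicRoots}
    (hT : ∀ i, RingClass.twoDiv V (T.root i) = 0) (L : ℕ) [NeZero L] {g : Γℚ}
    (hsign : Equiv.Perm.sign (T.perm g) = 1) (hne : T.perm g ≠ 1) (S : Finset ℕ) :
    ∃ l : ℕ, l.Prime ∧ l ∉ S ∧ V.IsGoodPrimeFor l ∧ (V.apOfModel l : ZMod 2) = 1 ∧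
      ∃ a b : ℕ, (l : ZMod L) = (EC.cycloChar L g : ZMod L) ^ a ∧
        (EC.cycloChar L g : ZMod L) = (l : ZMod L) ^ b := by
  classical
  have : Algebra.IsAlgebraic ℚ Qb := AlgebraicClosure.isAlgebraic ℚ
  obtain ⟨M, hM, hMk⟩ := EC.cycloChar_factors L
  let R : IntermediateField ℚ Qb := IntermediateField.adjoin ℚ (Set.range T.root)
  have hR : FiniteDimensional ℚ R :=
    IntermediateField.finiteDimensional_adjoin fun x _ => Algebra.IsIntegral.isIntegral x
  let ρ : Γℚ →* Equiv.Perm (Fin 3) × (ZMod L)ˣ := T.perm.prod (EC.cycloChar L)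
  obtain ⟨l, hl, hlS, A, σ, hA, hσ, -, a, b, ha, hb⟩ :=
    Density.exists_isFrobeniusAt_map_pow ρ ⟨R ⊔ M, inferInstance, fun τ hτ =>
      Prod.ext (Equiv.ext fun i => T.root_injective ((T.apply_root τ i).symm.trans
        (hτ _ (le_sup_left (a := R) (IntermediateField.subset_adjoin ℚ _ ⟨i, rfl⟩)))))
        (hMk τ fun x hx => hτ x (le_sup_right (b := M) hx))⟩ g
      (S ∪ L.primeFactors ∪ V.Δ.natAbs.primeFactors)
  simp only [Finset.mem_union, not_or] at hlS
  obtain ⟨⟨hlS, hlL⟩, hlΔ⟩ := hlS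
  have hgood : V.IsGoodPrimeFor l := fun hd => hlΔ (Nat.mem_primeFactors.mpr
    ⟨hl, Int.natCast_dvd.mp hd, Int.natAbs_ne_zero.mpr hV.delta_ne_zero⟩)
  have hl2 : l ≠ 2 := fun h => hgood (h ▸ hV.two_dvd)
  have hχ : (EC.cycloChar L σ : ZMod L) = (l : ZMod L) := EC.cycloChar_eq_of_isFrobeniusAt hl
    (fun h => hlL (Nat.mem_primeFactors.mpr ⟨hl, h, NeZero.ne L⟩)) hA hσ
  have hpa : T.perm σ = T.perm g ^ a := by simpa [ρ] using congrArg Prod.fst ha
  have hpb : T.perm g = T.perm σ ^ b := by simpa [ρ] using congrArg Prod.fst hb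
  refine ⟨l, hl, hlS, hgood, ?_, a, b, ?_, ?_⟩
  · have key : ∀ p : Equiv.Perm (Fin 3), Equiv.Perm.sign p = 1 → p ≠ 1 → ∀ i, p i ≠ i := by decide
    rw [RingClass.apOfModel_cast hT hV.delta_ne_zero hl hl2 hgood hA hσ, if_pos (key _ ?_ ?_)]
    · rw [hpa, map_pow, hsign, one_pow]
    · exact fun h => hne (by rw [hpb, h, one_pow])
  · rw [← hχ, ← Units.val_pow_eq_pow_val]
    exact congrArg (fun x : Equiv.Perm (Fin 3) × (ZMod L)ˣ => (x.2 : ZMod L)) ha
  · rw [← hχ, ← Units.val_pow_eq_pow_val]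
    exact congrArg (fun x : Equiv.Perm (Fin 3) × (ZMod L)ˣ => (x.2 : ZMod L)) hb

/-- **The data of the Hecke half.** -/
theorem exists_heckeData (V : WeierstrassCurve ℤ) (hV : IsTresModel V) (K : Type) [Field K]
    [NumberField K] (hK : IsDiscField V K) (n : ℕ) (Q : Finset ℕ) (hn : 2 ≤ n)
    (hQ : IsAuxSet V n Q) (𝔪 : Ideal (integralClosure ℤ ℂ)) (hm : 𝔪.IsMaximal)
    (h2 : (2 : integralClosure ℤ ℂ) ∈ 𝔪) :
    ∃ D : HeckeData, Nat.card (ClassGroup (𝓞 D.K)) = NumberField.classNumber K ∧ D.Q = Q ∧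
      2 * D.m = ∏ p ∈ badPrimes V, p ∧ D.N * D.f = auxLevel V Q ∧ RingHom.ker D.red = 𝔪 ∧
      D.RSplit ∧ D.NonEisenstein ∧
      ∀ l : ℕ, l.Prime → ¬ l ∣ D.N * D.f → D.tbar l = (V.apOfModel l : D.k) := by
  classical
  have hΔ := hV.delta_ne_zero
  obtain ⟨T, hT⟩ := RingClass.exists_twoTorsionRoots hΔ hV.no_two_torsion
  obtain ⟨m, hodd, hsq, hm1, hdiscr, hbad, -, -⟩ := RingClass.exists_discField_data hV hK
  -- the residue field
  let _ := Ideal.Quotient.field 𝔪
  let R := integralClosure ℤ ℂ ⧸ 𝔪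
  let k := AlgebraicClosure R
  have : CharP R 2 := (CharP.charP_iff_prime_eq_zero Nat.prime_two).2 (by
    rw [← map_natCast (Ideal.Quotient.mk 𝔪), Ideal.Quotient.eq_zero_iff_mem]; exact_mod_cast h2)
  have : CharP k 2 := charP_of_injective_algebraMap (algebraMap R k).injective 2
  let red : integralClosure ℤ ℂ →+* k := (algebraMap R k).comp (Ideal.Quotient.mk 𝔪)
  have hker : RingHom.ker red = 𝔪 := by
    rw [RingHom.ker_comp_of_injective _ (algebraMap R k).injective, Ideal.mk_ker]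
  obtain ⟨χ, hχ3, hχ1, hχ⟩ := RingClass.exists_classChar_trace hV hK k
  have hbadiff : ∀ l : ℕ, l.Prime → (V.IsGoodPrimeFor l ↔ ¬ l ∣ 2 * m) := fun l hl => by
    rw [← hbad, (Nat.prime_iff.1 hl).dvd_finsetProd_iff]
    refine not_congr ⟨fun h => ⟨l, (mem_badPrimes_iff hΔ).mpr ⟨hl, h⟩, dvd_rfl⟩, ?_⟩
    rintro ⟨p, hp, hd⟩
    obtain ⟨hpp, hpΔ⟩ := (mem_badPrimes_iff hΔ).mp hp
    exact ((Nat.prime_dvd_prime_iff_eq hl hpp).mp hd).symm ▸ hpΔ
  -- the auxiliary prime `r`
  obtain ⟨g, hg, hg1, hgχ⟩ := exists_threeCycle_cycloChar_twelve hV hT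
  obtain ⟨r, hr, hrS, hrgood, hra, a, b, hra', hrb'⟩ :=
    exists_prime_apOfModel_odd hV hT 12 hg hg1 Q
  rw [hgχ, Units.val_neg, Units.val_one] at hra' hrb'
  have hr12 : r % 12 = 11 := by
    rcases Nat.even_or_odd a with he | ho
    · rw [he.neg_one_pow] at hra'
      rw [hra', one_pow] at hrb'
      exact absurd hrb' (by decide)
    · rw [ho.neg_one_pow] at hra'
      have h := congrArg ZMod.val hra'
      rw [ZMod.val_natCast] at h
      exact h
  have hQgood : ∀ q ∈ Q, V.IsGoodPrimeFor q := fun q hq => (hQ.aux q hq).good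
  let D : HeckeData :=
    { K := K, m := m, r := r, Q := Q, k := k, red := red, χ := χ
      finrank_eq := hK.1
      discr_eq := hdiscr
      m_odd := hodd
      m_squarefree := hsq
      m_ne_one := hm1
      aux := RingClass.isAuxSet_of_aux hV hK hn hQ
      Q_nonempty := hQ.nonempty
      Q_not_dvd := fun q hq h => by
        have hqp := (hQ.aux q hq).prime
        rcases hqp.dvd_mul.mp h with h | h
        · exact (hbadiff q hqp).mp (hQgood q hq) h
        · exact hrS ((Nat.prime_dvd_prime_iff_eq hqp hr).mp h ▸ hq)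
      r_prime := hr
      r_mod := hr12
      r_not_dvd := (hbadiff r hr).mp hrgood
      χ_cube := hχ3
      χ_ne_one := hχ1 }
  have htbar : ∀ l : ℕ, l.Prime → V.IsGoodPrimeFor l → D.tbar l = (V.apOfModel l : k) :=
    fun l hl hgood => by
      show (if l ≠ 0 then _ else 0) = _
      rw [if_pos hl.ne_zero]
      convert hχ l hl hgood
  have hodd' : ∀ l : ℕ, l.Prime → V.IsGoodPrimeFor l → (V.apOfModel l : ZMod 2) = 1 →
      D.tbar l = 1 := fun l hl hgood ha => by
    have h := congrArg (ZMod.castHom (dvd_refl 2) k) ha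
    rw [map_intCast, map_one] at h
    exact (htbar l hl hgood).trans h
  have hNf : D.N * D.f = auxLevel V Q := by
    rw [auxLevel, signSet, Finset.prod_union, hbad]
    · rfl
    · exact Finset.disjoint_left.mpr fun q hq hqQ =>
        hQgood q hqQ ((mem_badPrimes_iff hΔ).mp hq).2
  refine ⟨D, ?_, rfl, hbad.symm, hNf, hker, hodd' r hr hrgood hra, fun L hL => ?_,
    fun l hl hld => htbar l hl ((hbadiff l hl).mpr fun h => hld (dvd_mul_of_dvd_left h _))⟩
  · rw [Nat.card_eq_fintype_card]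
    rfl
  · have : NeZero L := ⟨hL⟩
    obtain ⟨g', hg', hg'1, hg'χ⟩ := exists_threeCycle_cycloChar_one hV hT L
    obtain ⟨l, hl, hlS, hlgood, hla, a', b', hla', -⟩ :=
      exists_prime_apOfModel_odd hV hT L hg' hg'1 (insert r (L.primeFactors ∪ Q))
    simp only [Finset.mem_insert, Finset.mem_union, not_or] at hlS
    obtain ⟨hlr, hlL, hlQ⟩ := hlS
    refine ⟨l, hl, fun h => ?_, ?_, by rw [hodd' l hl hlgood hla]; exact one_ne_zero⟩
    · rcases hl.dvd_mul.mp h with h | h
      · rcases hl.dvd_mul.mp h with h | h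
        · rcases hl.dvd_mul.mp h with h | h
          · exact hlL (Nat.mem_primeFactors.mpr ⟨hl, h, hL⟩)
          · exact (hbadiff l hl).mp hlgood h
        · exact hlr ((Nat.prime_dvd_prime_iff_eq hl hr).mp h)
      · obtain ⟨q, hq, hd⟩ := ((Nat.prime_iff.1 hl).dvd_finsetProd_iff _).mp h
        exact hlQ ((Nat.prime_dvd_prime_iff_eq hl (hQ.aux q hq).prime).mp hd ▸ hq)
    · rw [hla', hg'χ, Units.val_one, one_pow]

end Fermat.Agent.TwoAdic.HeckeSide
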